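import Fermat.Agent.ORD.P0.Defs

/-!
# ORD / P0 / Res : consequences of residual ordinarity.

`hres` gives a basis `b̄` of `V̄ = k ⊗ V` with `ρ̄(τ) b̄₀ ∈ k b̄₀` (inertia is contained in the decomposition group) and `ρ̄(τ) b̄₁ - b̄₁ ∈ k b̄₀` for `τ ∈ I`:
the matrix of `ρ̄(τ)` is `[[χ, *], [0, 1]]`, so `tr = 1 + det`.  `tr`, `det` commute with base change (`LinearMap.trace_baseChange`, `LinearMap.det_baseChange`),
and `algebraMap T (ResidueField T) x = 0 ↔ x ∈ 𝔪`.
-/

set_option autoImplicit false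

namespace Fermat.Agent.ORD.P0

open Fermat.Agent.GR.Adic (GQ)
open IsLocalRing

local notation "Qbar'" => AlgebraicClosure ℚ

/-- an endomorphism of a free module of rank two which is the identity modulo the line `k b₀`. -/
theorem Res_trace_eq_one_add_det {k V : Type*} [CommRing k] [AddCommGroup V] [Module k V]
    (b : Module.Basis (Fin 2) k V) (φ : Module.End k V)
    (h : ∀ v, φ v - v ∈ Submodule.span k {b 0}) :
    LinearMap.trace k V φ = 1 + LinearMap.det φ := by
  obtain ⟨c₀, hc₀⟩ := Submodule.mem_span_singleton.1 (h (b 0))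
  obtain ⟨c₁, hc₁⟩ := Submodule.mem_span_singleton.1 (h (b 1))
  have h0 : φ (b 0) = (c₀ + 1) • b 0 := by
    rw [add_smul, one_smul, hc₀, sub_add_cancel]
  have h1 : φ (b 1) = c₁ • b 0 + b 1 := by
    rw [hc₁, sub_add_cancel]
  rw [LinearMap.trace_eq_matrix_trace k b φ, ← LinearMap.det_toMatrix b φ, Matrix.det_fin_two,
    Matrix.trace_fin_two]
  simp only [LinearMap.toMatrix_apply, h0, h1, map_smul, map_add, Module.Basis.repr_self,
    Finsupp.smul_apply, Finsupp.add_apply, Finsupp.single_apply]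
  simp
  ring

theorem trace_sub_one_add_det_mem {T : Type} [CommRing T] [IsLocalRing T] (ρ : GaloisRepAdic T) {p : ℕ}
    (hres : (GaloisRepAdic.ofResidualGaloisRep ρ.residual).IsOrdinaryAt p)
    (P : ValuationSubring Qbar') (hP : P.LiesOverPrime p) (τ : GQ) (hτ : τ ∈ P.inertiaSubgroupIn ℚ) :
    LinearMap.trace T ρ.V (ρ.ρ τ) - (1 + LinearMap.det (ρ.ρ τ)) ∈ maximalIdeal T := by
  obtain ⟨L, ⟨b, rfl⟩, -, h3⟩ := hres P hP
  have h4 : LinearMap.trace (ResidueField T) (TensorProduct T (ResidueField T) ρ.V)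
      ((ρ.ρ τ).baseChange (ResidueField T)) =
      1 + LinearMap.det ((ρ.ρ τ).baseChange (ResidueField T)) :=
    Res_trace_eq_one_add_det b ((ρ.ρ τ).baseChange (ResidueField T)) (h3 τ hτ)
  rw [LinearMap.trace_baseChange, LinearMap.det_baseChange] at h4
  rw [← residue_eq_zero_iff, map_sub, map_add, map_one, sub_eq_zero]
  exact h4

/-- an integer prime to `p` is a unit of `T`. -/
theorem isUnit_natCast_sub_one {T : Type} [CommRing T] [IsLocalRing T] {p : ℕ} (hp : p.Prime)
    (hpT : (p : T) ∈ maximalIdeal T) {a : ℕ} (ha : ¬ a ≡ 1 [MOD p]) : IsUnit ((a : T) - 1) := by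
  by_contra hcon
  have hmem : (a : T) - 1 ∈ maximalIdeal T := (mem_maximalIdeal _).2 hcon
  rw [Nat.modEq_iff_dvd] at ha
  obtain ⟨u, v, huv⟩ := ((Nat.prime_iff_prime_int.1 hp).irreducible.coprime_iff_not_dvd).2 ha
  have h1 : (u : T) * (p : T) - (v : T) * ((a : T) - 1) = 1 := by
    have := congrArg (Int.cast : ℤ → T) huv
    push_cast at this
    linear_combination this
  have h2 : (1 : T) ∈ maximalIdeal T := by
    rw [← h1]
    exact Ideal.sub_mem _ (Ideal.mul_mem_left _ _ hpT) (Ideal.mul_mem_left _ _ hmem)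
  exact (Ideal.ne_top_iff_one _).1 (maximalIdeal.isMaximal T).ne_top h2

end Fermat.Agent.ORD.P0
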