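import Mathlib

/-!
# ORD / P0 / Binom : `(a + N)^(p^k) = a^(p^k)` on a group killed by `p^J` on which `N^J = 0`, for `k ≥ 2 J`.

PROOF.  `(a + N)^(p^k) = ∑_i C(p^k, i) a^(p^k - i) N^i` (`Commute.add_pow`, the integer `a` is central).  Terms with `i ≥ J` vanish on `y` (and `N^i y` stays in the subgroup).
For `0 < i < J`: `p^(k - v_p(i)) ∣ C(p^k, i)` (`Nat.Prime.multiplicity_choose_prime_pow` / `padicValNat_choose...`, or elementary: `i C(p^k, i) = p^k C(p^k - 1, i - 1)`) and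
`v_p(i) ≤ i < J`, `k - v_p(i) ≥ J`.
-/

set_option autoImplicit false

namespace Fermat.Agent.ORD.P0

theorem Binom_dvd_choose {p : ℕ} (hp : p.Prime) {J k m : ℕ} (hk : 2 * J ≤ k) (hm0 : m ≠ 0)
    (hmJ : m < J) : p ^ J ∣ (p ^ k).choose m := by
  obtain ⟨v, m', hm', rfl⟩ := Nat.exists_eq_pow_mul_and_not_dvd hm0 p hp.ne_one
  have hm'0 : 0 < m' := Nat.pos_of_ne_zero (by rintro rfl; exact hm' (dvd_zero _))
  have hv : v < J := by
    calc v < p ^ v := Nat.lt_pow_self hp.one_lt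
      _ ≤ p ^ v * m' := Nat.le_mul_of_pos_right _ hm'0
      _ < J := hmJ
  have h1 : p ^ k ∣ (p ^ v * m') * (p ^ k).choose (p ^ v * m') := by
    obtain ⟨n, hn⟩ : ∃ n, p ^ k = n + 1 := ⟨p ^ k - 1, by have := pow_pos hp.pos k; omega⟩
    obtain ⟨i, hi⟩ : ∃ i, p ^ v * m' = i + 1 := ⟨p ^ v * m' - 1, by omega⟩
    rw [hi, hn]
    have := Nat.add_one_mul_choose_eq n i
    exact ⟨n.choose i, by rw [mul_comm (i + 1)]; exact this.symm⟩
  have h2 : p ^ k = p ^ v * p ^ (k - v) := by rw [← pow_add]; congr 1; omega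
  rw [h2, mul_assoc, Nat.mul_dvd_mul_iff_left (pow_pos hp.pos v)] at h1
  have h3 : p ^ (k - v) ∣ (p ^ v * p ^ (k - v)).choose (p ^ v * m') :=
    (Nat.Coprime.pow_left _ ((Nat.Prime.coprime_iff_not_dvd hp).2 hm')).dvd_of_dvd_mul_left h1
  rw [h2]
  exact (pow_dvd_pow p (by omega)).trans h3

theorem pow_pow_eq_of_nilpotent {W : Type*} [AddCommGroup W] {p : ℕ} (hp : p.Prime)
    (Y : AddSubgroup W) (S : Module.End ℤ W) (a : ℕ) (hSY : ∀ y ∈ Y, S y ∈ Y) (J : ℕ)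
    (hN : ∀ y ∈ Y, ((S - (a : Module.End ℤ W)) ^ J) y = 0) (hpJ : ∀ y ∈ Y, (p ^ J) • y = 0)
    (k : ℕ) (hk : 2 * J ≤ k) : ∀ y ∈ Y, (S ^ p ^ k) y = (a ^ p ^ k) • y := by
  intro y hy
  have hS : S = (S - (a : Module.End ℤ W)) + (a : Module.End ℤ W) := by rw [sub_add_cancel]
  have hcomm : Commute (S - (a : Module.End ℤ W)) (a : Module.End ℤ W) := Nat.commute_cast _ a
  rw [hS, hcomm.add_pow, LinearMap.sum_apply]
  rw [Finset.sum_eq_single 0]
  · rw [pow_zero, one_mul, Nat.sub_zero, Nat.choose_zero_right, Nat.cast_one, mul_one,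
      ← Nat.cast_pow, Module.End.natCast_apply]
  · intro m _ hm0
    rw [Module.End.mul_apply, Module.End.mul_apply, Module.End.natCast_apply]
    rcases lt_or_ge m J with hmJ | hmJ
    · obtain ⟨c, hc⟩ := Binom_dvd_choose hp hk hm0 hmJ
      rw [hc, mul_comm, mul_smul, hpJ y hy, smul_zero, map_zero, map_zero]
    · have hz : ((a : Module.End ℤ W) ^ (p ^ k - m)) ((p ^ k).choose m • y) ∈ Y := by
        rw [← Nat.cast_pow, Module.End.natCast_apply]
        exact Y.nsmul_mem (Y.nsmul_mem hy _) _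
      have hm : (S - (a : Module.End ℤ W)) ^ m
          = (S - (a : Module.End ℤ W)) ^ (m - J) * (S - (a : Module.End ℤ W)) ^ J := by
        rw [← pow_add, Nat.sub_add_cancel hmJ]
      rw [hm, Module.End.mul_apply, hN _ hz, map_zero]
  · intro h
    exact absurd (Finset.mem_range.2 (Nat.succ_pos _)) h

end Fermat.Agent.ORD.P0
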