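import Fermat.Agent.ORD.P0.Sat
import Fermat.Agent.TOR.AdicMaster

/-!
# ORD / P0 / Cheb : every `g ∈ G_ℚ` acts on a finite Galois stable piece `Ξ` with `g + d g⁻¹ =` a Hecke operator `D`, and
`tr ρ(g) ≡ ψ D`, `det ρ(g) ≡ d` modulo `𝔪_T ^ n`.

PROOF = the first half of `TOR.charpoly_eq_of_kSys` (file `TOR/AdicMaster.lean`; reuse `tor_exists_level`, `tor_frobenius_pow_root`,
`KSys.lucas_eq` (copy the proof for `HSys`), `trace_pow_eq_lucasSeq`, `map_lucasSeq`, `tor_trace_det_of_charpoly`).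
Take a level `L` containing: a level fixing `Ξ` pointwise (`exists_level_of_finite`), the level `L₁` of `tor_exists_level ρ n`, and `ℚ(ζ_{p^j})`.
Weak Chebotarev gives `ℓ ∉ bad`, a Frobenius `σ` at `ℓ`, `i` with `σ ^ i = g` on `L`.  Put `d = ℓ ^ i`, `D = lucasSeq (τ ℓ) ℓ i`.
On all of `W`: `act (σ^i) + ℓ^i act (σ^i)⁻¹ = op D`.  For `x ∈ Ξ`: `act (σ^i) x = act g (act (g⁻¹ σ^i) x) = act g x`, and
`act (σ^i)⁻¹ x = act g⁻¹ x` because `g⁻¹ x ∈ Ξ` is fixed by `g⁻¹ σ^i` as well.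
-/

set_option autoImplicit false

namespace Fermat.Agent.ORD.P0

open Fermat.Agent.GR.Adic (GQ FixesLevel)
open Fermat.Agent.GR.Asm (WeakChebotarev)
open IsLocalRing

local notation "Qbar'" => AlgebraicClosure ℚ

variable {bad : Finset ℕ} {HH : Type} [CommRing HH]

open Fermat.Agent.GR.Adic (lucasSeq map_lucasSeq pow_add_pow_eq_lucasSeq trace_pow_eq_lucasSeq) in
/-- The Eichler--Shimura relation for powers of a Frobenius (copy of `TOR.KSys.lucas_eq`). -/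
theorem Cheb_lucas_eq (X : HSys bad HH) {ℓ : ℕ} (hℓ : ℓ.Prime) (hbad : ℓ ∉ bad)
    (A : ValuationSubring Qbar') (hA : A.LiesOverPrime ℓ) (σ : GQ) (hσ : A.IsFrobeniusAt σ ℓ)
    (j : ℕ) (w : X.W) :
    X.op (lucasSeq (X.τ ℓ) (ℓ : HH) j) w
      = X.act (σ ^ j) w + (ℓ ^ j) • X.act (σ ^ j)⁻¹ w := by
  have h1 : X.act σ * X.act σ⁻¹ = 1 := by rw [← map_mul, mul_inv_cancel, map_one]
  have h2 : X.act σ⁻¹ * X.act σ = 1 := by rw [← map_mul, inv_mul_cancel, map_one]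
  have hc : Commute (X.act σ) ((ℓ : Module.End ℤ X.W) * X.act σ⁻¹) := by
    have hn : Commute (X.act σ) (ℓ : Module.End ℤ X.W) := (Nat.cast_commute ℓ _).symm
    exact hn.mul_right (by rw [Commute, SemiconjBy, h1, h2])
  have hsum : X.act σ + (ℓ : Module.End ℤ X.W) * X.act σ⁻¹ = X.op (X.τ ℓ) := by
    have h := X.frob ℓ hℓ hbad A hA σ hσ
    have h3 := congrArg (fun f => f * X.act σ⁻¹) h
    simp only [add_mul, sub_mul, mul_assoc, h1, mul_one, zero_mul] at h3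
    rw [← sub_eq_zero, ← h3]
    abel
  have hprod : X.act σ * ((ℓ : Module.End ℤ X.W) * X.act σ⁻¹) = (ℓ : Module.End ℤ X.W) := by
    rw [← mul_assoc, ((Nat.cast_commute ℓ (X.act σ)).symm).eq, mul_assoc, h1, mul_one]
  have h := pow_add_pow_eq_lucasSeq hc j
  rw [hsum, hprod] at h
  rw [map_lucasSeq, map_natCast, ← h, LinearMap.add_apply,
    ((Nat.cast_commute ℓ (X.act σ⁻¹))).mul_pow, ← map_pow, ← map_pow,
    Module.End.mul_apply, ← Nat.cast_pow, Module.End.natCast_apply, inv_pow]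

open Fermat.Agent.GR.Adic (lucasSeq map_lucasSeq pow_add_pow_eq_lucasSeq trace_pow_eq_lucasSeq) in
open Fermat.Agent.TOR in
theorem exists_hecke_approx (hcheb : WeakChebotarev) {p : ℕ} (hp : p.Prime) (hpbad : p ∈ bad)
    (X : HSys bad HH) {T : Type} [CommRing T] [IsLocalRing T] (ψ : HH →+* T) (ρ : GaloisRepAdic T)
    (hatt : Attached X ψ ρ) (Ξ : AddSubgroup X.W) (hfin : (Ξ : Set X.W).Finite)
    (hact : ∀ σ : GQ, ∀ x ∈ Ξ, X.act σ x ∈ Ξ) (j n : ℕ) (g : GQ) :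
    ∃ (D : HH) (d : ℕ), (∀ ζ : Qbar', ζ ^ p ^ j = 1 → g ζ = ζ ^ d) ∧
      (∀ x ∈ Ξ, X.act g x + d • X.act g⁻¹ x = X.op D x) ∧
      LinearMap.trace T ρ.V (ρ.ρ g) - ψ D ∈ maximalIdeal T ^ n ∧
      LinearMap.det (ρ.ρ g) - (d : T) ∈ maximalIdeal T ^ n := by
  classical
  have hpos : 0 < p ^ j := pow_pos hp.pos _
  obtain ⟨L₁, hL₁, h₁⟩ := tor_exists_level ρ n
  obtain ⟨L₂, hL₂, h₂⟩ := exists_level_of_finite X (Ξ : Set X.W) hfin
  have : NeZero ((p ^ j : ℕ) : Qbar') := ⟨Nat.cast_ne_zero.mpr hpos.ne'⟩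
  obtain ⟨ζ₀, hζ₀⟩ := HasEnoughRootsOfUnity.exists_primitiveRoot Qbar' (p ^ j)
  have hint : IsIntegral ℚ ζ₀ := (hζ₀.isIntegral hpos).tower_top
  have hL₄ : FiniteDimensional ℚ (IntermediateField.adjoin ℚ {ζ₀}) :=
    IntermediateField.adjoin.finiteDimensional hint
  set L₄ := IntermediateField.adjoin ℚ {ζ₀} with hL₄def
  have hL12 : FiniteDimensional ℚ (L₁ ⊔ L₂ : IntermediateField ℚ Qbar') :=
    IntermediateField.finiteDimensional_sup L₁ L₂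
  have hL : FiniteDimensional ℚ ((L₁ ⊔ L₂) ⊔ L₄ : IntermediateField ℚ Qbar') :=
    IntermediateField.finiteDimensional_sup _ _
  have le₁ : L₁ ≤ (L₁ ⊔ L₂) ⊔ L₄ := le_sup_left.trans le_sup_left
  have le₂ : L₂ ≤ (L₁ ⊔ L₂) ⊔ L₄ := le_sup_right.trans le_sup_left
  have le₄ : L₄ ≤ (L₁ ⊔ L₂) ⊔ L₄ := le_sup_right
  obtain ⟨ℓ, A, σ, i, hℓ, hℓT, hA, hσ, hσg⟩ := hcheb _ hL bad g
  have hℓp : ℓ ≠ p := fun h => hℓT (h ▸ hpbad)
  -- `g⁻¹ σ ^ i` fixes the level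
  have hfix : ∀ x ∈ (L₁ ⊔ L₂) ⊔ L₄, (g⁻¹ * σ ^ i) x = x := by
    intro x hx
    rw [AlgEquiv.mul_apply, hσg x hx]
    exact g.symm_apply_apply x
  have hfixΞ : ∀ x ∈ Ξ, X.act (g⁻¹ * σ ^ i) x = x := fun x hx =>
    h₂ (g⁻¹ * σ ^ i) (fun y hy => hfix y (le₂ hy)) x hx
  have hsplit : ∀ w : X.W, X.act (σ ^ i) w = X.act g (X.act (g⁻¹ * σ ^ i) w) := by
    intro w
    rw [← Module.End.mul_apply, ← map_mul, mul_inv_cancel_left]
  have e1 : ∀ x ∈ Ξ, X.act (σ ^ i) x = X.act g x := by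
    intro x hx
    rw [hsplit, hfixΞ x hx]
  have e2 : ∀ x ∈ Ξ, X.act (σ ^ i)⁻¹ x = X.act g⁻¹ x := by
    intro x hx
    have h6 : X.act (σ ^ i) (X.act g⁻¹ x) = x := by
      rw [e1 _ (hact g⁻¹ x hx), ← Module.End.mul_apply, ← map_mul, mul_inv_cancel, map_one,
        Module.End.one_apply]
    conv_lhs => rw [← h6]
    rw [← Module.End.mul_apply, ← map_mul, inv_mul_cancel, map_one, Module.End.one_apply]
  obtain ⟨t1, t2⟩ := h₁ g (σ ^ i) (fun x hx => (hσg x (le₁ hx)).symm)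
  have hch := hatt ℓ hℓ hℓT A hA σ hσ
  refine ⟨lucasSeq (X.τ ℓ) (ℓ : HH) i, ℓ ^ i, ?_, ?_, ?_, ?_⟩
  · intro ζ hζ
    have : NeZero (p ^ j) := ⟨hpos.ne'⟩
    obtain ⟨k, _, rfl⟩ := hζ₀.eq_pow_of_pow_eq_one hζ
    have hmem : ζ₀ ^ k ∈ (L₁ ⊔ L₂) ⊔ L₄ :=
      le₄ (pow_mem (IntermediateField.mem_adjoin_simple_self ℚ ζ₀) k)
    rw [← hσg _ hmem]
    exact tor_frobenius_pow_root A hp hℓ hℓp hA σ hσ j hζ i
  · intro x hx
    rw [Cheb_lucas_eq X hℓ hℓT A hA σ hσ, e1 x hx, e2 x hx]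
  · have htr : LinearMap.trace T ρ.V (ρ.ρ (σ ^ i)) = ψ (lucasSeq (X.τ ℓ) (ℓ : HH) i) := by
      rw [map_pow, trace_pow_eq_lucasSeq ρ.finrank_eq _ _ _ hch, map_lucasSeq, map_natCast]
    rw [htr] at t1
    exact t1
  · have hdet : LinearMap.det (ρ.ρ (σ ^ i)) = ((ℓ ^ i : ℕ) : T) := by
      rw [map_pow, map_pow, (tor_trace_det_of_charpoly ρ.finrank_eq _ _ _ hch).2, Nat.cast_pow]
    rw [hdet] at t2
    exact t2

end Fermat.Agent.ORD.P0
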