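import Mathlib
import Fermat.Prelude.Def_GaloisRep_LocalConditions
import Fermat.Agent.GR.Adic.Defs
import Fermat.Agent.GR.Asm.Residual

/-!
# ORD / P0 : the abstract algebra of S33 (ordinarity at `p ‖ N`), at FINITE LEVEL.  Definitions (no sorry).

* `HSys bad HH` : a group `W` (Kummer classes) with commuting actions of `G_ℚ`, of a commutative "Hecke ring" `HH`
  (through a ring homomorphism `op : HH →+* End W`) and of an operator `U` (`= U_p`), satisfying the Eichler--Shimura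
  relation outside `bad`.
* `Good X 𝔪 Ξ` : `Ξ` is a FINITE subgroup of `W`, stable under everything, on which `U` is injective (hence bijective,
  hence periodic) and every element of `𝔪` is nilpotent  ("a finite piece of the `U`-ordinary `𝔪`-primary part `W₂`").
-/

set_option autoImplicit false

namespace Fermat.Agent.ORD.P0

open Fermat.Agent.GR.Adic (GQ FixesLevel)

local notation "Qbar'" => AlgebraicClosure ℚ

/-- Hecke--Galois module with an operator `U`. -/
structure HSys (bad : Finset ℕ) (HH : Type) [CommRing HH] : Type 1 where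
  W : Type
  [instW : AddCommGroup W]
  act : GQ →* Module.End ℤ W
  smooth : ∀ x : W, ∃ L : IntermediateField ℚ Qbar', FiniteDimensional ℚ L ∧
    ∀ σ : GQ, FixesLevel L σ → act σ x = x
  op : HH →+* Module.End ℤ W
  op_act : ∀ (D : HH) (σ : GQ), Commute (op D) (act σ)
  τ : ℕ → HH
  frob : ∀ ℓ : ℕ, ℓ.Prime → ℓ ∉ bad → ∀ A : ValuationSubring Qbar', A.LiesOverPrime ℓ →
    ∀ σ : GQ, A.IsFrobeniusAt σ ℓ →
      act σ * act σ - op (τ ℓ) * act σ + (ℓ : Module.End ℤ W) = 0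
  U : Module.End ℤ W
  U_act : ∀ σ : GQ, Commute U (act σ)
  U_op : ∀ D : HH, Commute U (op D)

attribute [instance] HSys.instW

variable {bad : Finset ℕ} {HH : Type} [CommRing HH]

/-- a finite Hecke and `U` stable piece of the ordinary `𝔪`-primary part (not yet Galois stable). -/
structure Good0 (X : HSys bad HH) (𝔪 : Ideal HH) (Ξ : AddSubgroup X.W) : Prop where
  fin : (Ξ : Set X.W).Finite
  op_mem : ∀ (D : HH), ∀ x ∈ Ξ, X.op D x ∈ Ξ
  U_mem : ∀ x ∈ Ξ, X.U x ∈ Ξ
  U_inj : ∀ x ∈ Ξ, X.U x = 0 → x = 0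
  nil : ∀ D ∈ 𝔪, ∀ x ∈ Ξ, ∃ n : ℕ, X.op (D ^ n) x = 0

/-- a finite Galois, Hecke and `U` stable piece of the ordinary `𝔪`-primary part. -/
structure Good (X : HSys bad HH) (𝔪 : Ideal HH) (Ξ : AddSubgroup X.W) : Prop extends
    Good0 X 𝔪 Ξ where
  act_mem : ∀ (σ : GQ), ∀ x ∈ Ξ, X.act σ x ∈ Ξ

/-- the maximal ideal of `HH` cut out by `ψ : HH → T`. -/
noncomputable def mOf {T : Type} [CommRing T] [IsLocalRing T] (ψ : HH →+* T) : Ideal HH :=
  RingHom.ker ((IsLocalRing.residue T).comp ψ)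

theorem mem_mOf {T : Type} [CommRing T] [IsLocalRing T] (ψ : HH →+* T) (D : HH) :
    D ∈ mOf ψ ↔ ψ D ∈ IsLocalRing.maximalIdeal T := by
  rw [mOf, RingHom.mem_ker, RingHom.comp_apply, IsLocalRing.residue_eq_zero_iff]

/-- **FAITH at finite level** (interface with P6 + P7): for every `n` there is a finite piece `Ξ` of the ordinary
`𝔪`-primary part such that every Hecke element killing `Ξ` is `≡ 0 mod 𝔪_T ^ n` in `T`. -/
def Faith (X : HSys bad HH) {T : Type} [CommRing T] [IsLocalRing T] (ψ : HH →+* T) : Prop :=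
  ∀ n : ℕ, ∃ Ξ : AddSubgroup X.W, Good0 X (mOf ψ) Ξ ∧
    ∀ D : HH, (∀ x ∈ Ξ, X.op D x = 0) → ψ D ∈ IsLocalRing.maximalIdeal T ^ n

/-- the representation `ρ` has the Frobenius characteristic polynomials prescribed by `ψ`. -/
def Attached (X : HSys bad HH) {T : Type} [CommRing T] [IsLocalRing T] (ψ : HH →+* T)
    (ρ : GaloisRepAdic T) : Prop :=
  ∀ ℓ : ℕ, ℓ.Prime → ℓ ∉ bad → ∀ A : ValuationSubring Qbar', A.LiesOverPrime ℓ →
    ∀ σ : GQ, A.IsFrobeniusAt σ ℓ →
      LinearMap.charpoly (ρ.ρ σ) =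
        Polynomial.X ^ 2 - Polynomial.C (ψ (X.τ ℓ)) * Polynomial.X + Polynomial.C (ℓ : T)

/-- the conclusion of S33 at one place `P`. -/
def OrdAt {T : Type} [CommRing T] [IsLocalRing T] (ρ : GaloisRepAdic T)
    (P : ValuationSubring Qbar') : Prop :=
  ∃ L : Submodule T ρ.V,
    (∃ b : Module.Basis (Fin 2) T ρ.V, L = T ∙ b 0) ∧
    (∀ σ ∈ P.decompositionSubgroup ℚ, ∀ v ∈ L, ρ.ρ σ v ∈ L) ∧
    (∀ σ ∈ P.inertiaSubgroupIn ℚ, ∀ v : ρ.V, ρ.ρ σ v - v ∈ L)

end Fermat.Agent.ORD.P0
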