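import Mathlib

/-!
# ORD / P0 / GramAlg : a `4 × 4` matrix `u uᵀ + v vᵀ` has determinant zero, for commuting OPERATORS.

`HH` commutative ring acting on an abelian group `W` through `op`; `C` a subgroup stable under `op D`, `x i`, `x' i`, on which all these operators commute pairwise;
`D` a matrix over `HH` with `op (D i j) = x i * x j + x' i * x' j` on `C`.  Then `op (det D) = 0` on `C`.

PROOF (suggestion).  Restrict all operators to `C` (`↥C` is an `AddCommGroup`).  Let `𝒞 = Algebra.adjoin ℤ S ⊆ End ℤ ↥C`, `S` the set of all restricted operators: a commutative ring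
(`Algebra.adjoinCommRingOfComm`).  `op` induces a ring homomorphism `op' : HH →+* 𝒞`, `RingHom.map_det`: `op' (det D) = det (u uᵀ + v vᵀ)` over the commutative ring `𝒞`.
`u uᵀ + v vᵀ = A * Aᵀ` with `A : Matrix (Fin 4) (Fin 4) 𝒞` having columns `u, v, 0, 0`, `det A = 0` (`Matrix.det_eq_zero_of_column_eq_zero`).
ALTERNATIVE without restriction: Leibniz expansion of `det D` and of the polynomial identity `det (u_i u_j + v_i v_j) = 0` in `MvPolynomial (Fin 8) ℤ`.
-/

set_option autoImplicit false

namespace Fermat.Agent.ORD.P0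

/-- commutative version. -/
theorem det_rank_two_eq_zero {R : Type*} [CommRing R] (u v : Fin 4 → R) :
    Matrix.det (Matrix.of fun i j => u i * u j + v i * v j) = 0 := by
  set A : Matrix (Fin 4) (Fin 4) R :=
    Matrix.of fun i k => if k = 0 then u i else if k = 1 then v i else 0 with hA
  have h1 : (Matrix.of fun i j => u i * u j + v i * v j) = A * A.transpose := by
    ext i j
    rw [Matrix.mul_apply, Fin.sum_univ_four]
    simp [hA]
  have h2 : A.det = 0 := by
    apply Matrix.det_eq_zero_of_column_eq_zero 2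
    intro i
    simp [hA]
  rw [h1, Matrix.det_mul, h2, zero_mul]

theorem gram_kill {HH W : Type*} [CommRing HH] [AddCommGroup W] (op : HH →+* Module.End ℤ W)
    (C : AddSubgroup W) (x x' : Fin 4 → Module.End ℤ W)
    (hopC : ∀ (E : HH), ∀ y ∈ C, op E y ∈ C) (hxC : ∀ i, ∀ y ∈ C, x i y ∈ C)
    (hx'C : ∀ i, ∀ y ∈ C, x' i y ∈ C)
    (hxx : ∀ i j, ∀ y ∈ C, x i (x j y) = x j (x i y))
    (hxx' : ∀ i j, ∀ y ∈ C, x i (x' j y) = x' j (x i y))
    (hx'x' : ∀ i j, ∀ y ∈ C, x' i (x' j y) = x' j (x' i y))
    (hox : ∀ (E : HH) i, ∀ y ∈ C, op E (x i y) = x i (op E y))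
    (hox' : ∀ (E : HH) i, ∀ y ∈ C, op E (x' i y) = x' i (op E y))
    (D : Matrix (Fin 4) (Fin 4) HH)
    (hD : ∀ i j, ∀ y ∈ C, op (D i j) y = x i (x j y) + x' i (x' j y)) :
    ∀ y ∈ C, op D.det y = 0 := by
  classical
  let C' : Submodule ℤ W := AddSubgroup.toIntSubmodule C
  let ro : HH → Module.End ℤ C' := fun E => (op E).restrict (fun y hy => hopC E y hy)
  let rx : Fin 4 → Module.End ℤ C' := fun i => (x i).restrict (fun y hy => hxC i y hy)
  let rx' : Fin 4 → Module.End ℤ C' := fun i => (x' i).restrict (fun y hy => hx'C i y hy)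
  let S : Set (Module.End ℤ C') := (Set.range ro ∪ Set.range rx) ∪ Set.range rx'
  have hcomm : ∀ a ∈ S, ∀ b ∈ S, a * b = b * a := by
    rintro a ((⟨E, rfl⟩ | ⟨i, rfl⟩) | ⟨i, rfl⟩) b ((⟨E', rfl⟩ | ⟨j, rfl⟩) | ⟨j, rfl⟩) <;>
      refine LinearMap.ext fun y => Subtype.ext ?_
    · show op E (op E' y) = op E' (op E y)
      rw [← Module.End.mul_apply, ← Module.End.mul_apply, ← map_mul, ← map_mul, mul_comm]
    · exact hox E j y y.2
    · exact hox' E j y y.2
    · exact (hox E' i y y.2).symm
    · exact hxx i j y y.2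
    · exact hxx' i j y y.2
    · exact (hox' E' i y y.2).symm
    · exact (hxx' j i y y.2).symm
    · exact hx'x' i j y y.2
  let _ : CommRing (Algebra.adjoin ℤ S) :=
    { (inferInstance : Ring (Algebra.adjoin ℤ S)) with
      mul_comm := (Algebra.isMulCommutative_adjoin ℤ hcomm).is_comm.comm }
  let op' : HH →+* Algebra.adjoin ℤ S :=
    { toFun := fun E => ⟨ro E, Algebra.subset_adjoin (Or.inl (Or.inl ⟨E, rfl⟩))⟩
      map_one' := Subtype.ext (LinearMap.ext fun y => Subtype.ext (by
        show op 1 (y : W) = y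
        rw [map_one]; rfl))
      map_mul' := fun a b => Subtype.ext (LinearMap.ext fun y => Subtype.ext (by
        show op (a * b) (y : W) = op a (op b (y : W))
        rw [map_mul]; rfl))
      map_zero' := Subtype.ext (LinearMap.ext fun y => Subtype.ext (by
        show op 0 (y : W) = 0
        rw [map_zero]; rfl))
      map_add' := fun a b => Subtype.ext (LinearMap.ext fun y => Subtype.ext (by
        show op (a + b) (y : W) = op a (y : W) + op b (y : W)
        rw [map_add]; rfl)) }
  let u : Fin 4 → Algebra.adjoin ℤ S := fun i =>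
    ⟨rx i, Algebra.subset_adjoin (Or.inl (Or.inr ⟨i, rfl⟩))⟩
  let v : Fin 4 → Algebra.adjoin ℤ S := fun i =>
    ⟨rx' i, Algebra.subset_adjoin (Or.inr ⟨i, rfl⟩)⟩
  have hmat : op'.mapMatrix D = Matrix.of fun i j => u i * u j + v i * v j := by
    apply Matrix.ext
    intro i j
    show op' (D i j) = u i * u j + v i * v j
    apply Subtype.ext
    show ro (D i j) = rx i * rx j + rx' i * rx' j
    apply LinearMap.ext
    intro y
    apply Subtype.ext
    exact hD i j y y.2
  have hdet : op' D.det = 0 := by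
    rw [RingHom.map_det, hmat, det_rank_two_eq_zero]
  intro y hy
  have h1 := congrArg
    (fun e : Algebra.adjoin ℤ S => (((e : Module.End ℤ C') ⟨y, hy⟩ : C') : W)) hdet
  exact h1

end Fermat.Agent.ORD.P0
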