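import Fermat.Agent.ORD.P0.Defs
import Fermat.Agent.GR.Adic.TraceRigid

/-!
# ORD / P0 / GramRep : trace form of a residually absolutely irreducible representation.

(a) `exists_gram_unit` : there are `g₁, …, g₄ ∈ G_ℚ` with `det (tr ρ(g_i g_j))` a unit of `T`.
  PROOF.  `GR.Adic.span_range_eq_top_of_residual_absIrr`: the `ρ(g)` span `End_T V`, free of rank 4.  Over the residue field `k` the images span `End_k V̄` (dimension 4), so 4 of them form a
  `k`-basis (`exists_linearIndependent` / `Basis.extract`...).  Their Gram matrix for the trace form is invertible over `k` (the trace form of `M₂(k)` is nondegenerate: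
  `GR.Adic.eq_zero_of_forall_trace_mul_eq_zero`; a Gram matrix of a basis w.r.t. a nondegenerate form has nonzero determinant: `LinearMap.BilinForm.nondegenerate_iff_det_ne_zero` / `Matrix.nondegenerate...`).
  The determinant over `T` reduces to it (`RingHom.map_det`, `LinearMap.trace_baseChange`), and an element of `T` which is nonzero in `k` is a unit.
(b) `mem_smul_top_of_trace` : if `tr (f ρ(g)) ∈ I` for all `g` then `f v ∈ I V` for all `v`.
  PROOF.  By span, `tr (f x) ∈ I` for all `x ∈ End V`; take `x` = matrix units in a basis: all matrix entries of `f` are in `I`.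
-/

set_option autoImplicit false

namespace Fermat.Agent.ORD.P0

open Fermat.Agent.GR.Adic (GQ)
open IsLocalRing

/-- over a field: a spanning family of `End W`, `dim W = 2`, contains four elements whose Gram
matrix for the trace form is invertible. -/
theorem gramRep_field {k W G : Type*} [Field k] [AddCommGroup W] [Module k W] [Module.Finite k W]
    (hW : Module.finrank k W = 2) (r : G → Module.End k W)
    (hspan : Submodule.span k (Set.range r) = ⊤) :
    ∃ g : Fin 4 → G,
      Matrix.det (Matrix.of fun i j => LinearMap.trace k W (r (g i) * r (g j))) ≠ 0 := by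
  classical
  obtain ⟨b, hbs, hbspan, hbli⟩ := exists_linearIndependent k (Set.range r)
  let B : Module.Basis b k (Module.End k W) := Module.Basis.mk hbli (by
    rw [Subtype.range_coe, hbspan, hspan])
  have hBc : ∀ x : b, B x = x := fun x => by simp [B]
  have : Finite b := Module.Finite.finite_basis B
  have : Fintype b := Fintype.ofFinite b
  have hcard : Fintype.card b = 4 := by
    rw [← Module.finrank_eq_card_basis B, Module.finrank_linearMap, hW]
  let e : Fin 4 ≃ b := (Fintype.equivFinOfCardEq hcard).symm
  have hg : ∀ i : Fin 4, ∃ g : G, r g = (e i : Module.End k W) := fun i => hbs (e i).2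
  choose g hg using hg
  let B' : Module.Basis (Fin 4) k (Module.End k W) := B.reindex e.symm
  have hB' : ∀ i, B' i = r (g i) := fun i => by
    rw [hg i, ← hBc]
    simp [B']
  refine ⟨g, fun hdet => ?_⟩
  obtain ⟨c, hc0, hc⟩ := Matrix.exists_mulVec_eq_zero_iff.2 hdet
  apply hc0
  have hδ : (∑ j, c j • r (g j)) = 0 := by
    apply Fermat.Agent.GR.Adic.eq_zero_of_forall_trace_mul_eq_zero
    intro x
    rw [← B'.sum_repr x, Finset.sum_mul, map_sum]
    refine Finset.sum_eq_zero fun i _ => ?_
    rw [smul_mul_assoc, map_smul, hB' i, Finset.mul_sum, map_sum]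
    have h1 := congrFun hc i
    rw [Matrix.mulVec, dotProduct] at h1
    simp only [Matrix.of_apply, Pi.zero_apply] at h1
    have h2 : ∑ j, LinearMap.trace k W (r (g i) * c j • r (g j)) =
        ∑ j, LinearMap.trace k W (r (g i) * r (g j)) * c j := by
      refine Finset.sum_congr rfl fun j _ => ?_
      rw [mul_smul_comm, map_smul, smul_eq_mul, mul_comm]
    rw [h2, h1, smul_zero]
  have hli := B'.linearIndependent
  rw [Fintype.linearIndependent_iff] at hli
  funext j
  refine hli c ?_ j
  rw [← hδ]
  exact Finset.sum_congr rfl fun j _ => by rw [hB' j]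

variable {T : Type} [CommRing T] [IsLocalRing T]

theorem exists_gram_unit (ρ : GaloisRepAdic T) (h : ρ.residual.IsAbsolutelyIrreducible) :
    ∃ g : Fin 4 → GQ,
      IsUnit (Matrix.det (Matrix.of fun i j => LinearMap.trace T ρ.V (ρ.ρ (g i * g j)))) := by
  have hB := Fermat.Agent.S53.span_range_eq_top ρ.residual h
  obtain ⟨g, hg⟩ := gramRep_field ρ.residual.finrank_eq (fun σ => ρ.residual.ρ σ) hB
  refine ⟨g, ?_⟩
  rw [← IsLocalRing.residue_ne_zero_iff_isUnit]
  intro h0
  apply hg
  rw [← h0, RingHom.map_det]
  congr 1
  ext i j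
  rw [RingHom.mapMatrix_apply, Matrix.map_apply, Matrix.of_apply, Matrix.of_apply, ← map_mul]
  exact LinearMap.trace_baseChange (ρ.ρ (g i * g j)) (ResidueField T)

theorem mem_smul_top_of_trace (ρ : GaloisRepAdic T) (h : ρ.residual.IsAbsolutelyIrreducible)
    (I : Ideal T) (f : Module.End T ρ.V) (hf : ∀ g : GQ, LinearMap.trace T ρ.V (f * ρ.ρ g) ∈ I)
    (v : ρ.V) : f v ∈ I • (⊤ : Submodule T ρ.V) := by
  classical
  have hspan := Fermat.Agent.GR.Adic.span_range_eq_top_of_residual_absIrr ρ h
  have hall : ∀ x : Module.End T ρ.V, LinearMap.trace T ρ.V (f * x) ∈ I := by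
    intro x
    have hx : x ∈ Submodule.span T (Set.range ρ.ρ) := by rw [hspan]; trivial
    induction hx using Submodule.span_induction with
    | mem x hx =>
      obtain ⟨g, rfl⟩ := hx
      exact hf g
    | zero => rw [mul_zero, map_zero]; exact I.zero_mem
    | add x y _ _ hx hy => rw [mul_add, map_add]; exact I.add_mem hx hy
    | smul t x _ hx => rw [mul_smul_comm, map_smul]; exact I.mul_mem_left t hx
  let b := Module.Free.chooseBasis T ρ.V
  have hb : ∀ i, f (b i) ∈ I • (⊤ : Submodule T ρ.V) := by
    intro i
    rw [← b.sum_repr (f (b i))]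
    refine Submodule.sum_mem _ fun j _ => ?_
    refine Submodule.smul_mem_smul ?_ trivial
    have h1 := hall ((b.coord j).smulRight (b i))
    have h2 : f * (b.coord j).smulRight (b i) = (b.coord j).smulRight (f (b i)) := by
      ext w
      simp
    rw [h2, LinearMap.trace_smulRight] at h1
    exact h1
  rw [← b.sum_repr v, map_sum]
  refine Submodule.sum_mem _ fun i _ => ?_
  rw [map_smul]
  exact Submodule.smul_mem _ _ (hb i)

end Fermat.Agent.ORD.P0
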