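import Fermat.Agent.ORD.P0.Sat

/-!
# ORD / P0 / Socle : finite `𝔪`-nilpotent Hecke modules.

(a) `exists_socle` : a nonzero Hecke stable subgroup `Z` of a good piece contains `y ≠ 0` killed by all of `𝔪`.
    [take `y ≠ 0` in `Z` with `HH y := {op D y}` of minimal cardinality; for `D ∈ 𝔪`, `HH (op D y) ⊆ HH y`; if `op D y ≠ 0` then equality by minimality, so
    `y = op (E D) y` for some `E`, hence `y = op ((E D)^n) y = op (E^n) (op (D^n) y) = 0` for `n` large.]
(b) `nilpotent_of_kills_socle` : an endomorphism `N` commuting with the Hecke action, preserving a Hecke stable subgroup `Y ≤ Ξ` and killing `Y[𝔪]`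
    is nilpotent on `Y`.  [the chain `N^i Y` is strictly decreasing while nonzero: if `N Q = Q`, `Q = N^i Y` finite, then `N` is injective on `Q`, but
    `Q[𝔪] ≠ 0` by (a) and `N` kills it.]
(c) `unit_injective` : if `ψ Δ` is a unit of `T` (finite residue field) then `op Δ` is injective on `Ξ`.  [`q = #k_T`: `μ := Δ^(q-1) - 1 ∈ 𝔪`;
    `op Δ y = 0 ⟹ op μ y = - y ⟹ op (μ^n) y = ± y`, and `= 0` for `n` large.]
(d) `exists_pow_smul` : `p ^ j` kills `Ξ` for some `j` (`(p : HH) ∈ 𝔪`, `op (p ^ n) x = p ^ n • x`, `Ξ` finite).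
-/

set_option autoImplicit false

namespace Fermat.Agent.ORD.P0

open IsLocalRing

variable {bad : Finset ℕ} {HH : Type} [CommRing HH]

/-- if `op F` fixes `y` then so does `op (F ^ n)`. -/
theorem Socle_op_pow_fix (X : HSys bad HH) (F : HH) (y : X.W) (hF : X.op F y = y) (n : ℕ) :
    X.op (F ^ n) y = y := by
  induction n with
  | zero => simp
  | succ n ih => rw [pow_succ, map_mul, Module.End.mul_apply, hF, ih]

theorem exists_socle {X : HSys bad HH} {𝔪 : Ideal HH} {Ξ : AddSubgroup X.W} (h : Good0 X 𝔪 Ξ)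
    (Z : AddSubgroup X.W) (hZ : Z ≤ Ξ) (hop : ∀ (D : HH), ∀ x ∈ Z, X.op D x ∈ Z) (hne : Z ≠ ⊥) :
    ∃ y ∈ Z, y ≠ 0 ∧ ∀ D ∈ 𝔪, X.op D y = 0 := by
  classical
  obtain ⟨y₀, hy₀Z, hy₀⟩ : ∃ y ∈ Z, y ≠ 0 := by
    by_contra hcon
    push Not at hcon
    exact hne ((AddSubgroup.eq_bot_iff_forall Z).2 hcon)
  -- the cyclic Hecke module generated by `y`, as a set
  let orb : X.W → Set X.W := fun y => Set.range fun D : HH => X.op D y
  have horbfin : ∀ y ∈ Z, (orb y).Finite := by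
    intro y hy
    refine h.fin.subset ?_
    rintro _ ⟨D, rfl⟩
    exact hZ (hop D y hy)
  obtain ⟨y, ⟨hyZ, hy0⟩, hmin⟩ := WellFounded.has_min
    (InvImage.wf (fun y : X.W => (orb y).ncard) Nat.lt_wfRel.wf) {y | y ∈ Z ∧ y ≠ 0}
    ⟨y₀, hy₀Z, hy₀⟩
  refine ⟨y, hyZ, hy0, ?_⟩
  intro D hD
  by_contra hDy
  have hDyZ : X.op D y ∈ Z := hop D y hyZ
  have hsub : orb (X.op D y) ⊆ orb y := by
    rintro _ ⟨E, rfl⟩
    exact ⟨E * D, by simp [map_mul, Module.End.mul_apply]⟩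
  have hle : (orb y).ncard ≤ (orb (X.op D y)).ncard := by
    have := hmin (X.op D y) ⟨hDyZ, hDy⟩
    exact not_lt.1 this
  have heq : orb (X.op D y) = orb y := Set.eq_of_subset_of_ncard_le hsub hle (horbfin y hyZ)
  have hy_mem : y ∈ orb (X.op D y) := by
    rw [heq]
    exact ⟨1, by simp⟩
  obtain ⟨E, hE⟩ := hy_mem
  have hfix : X.op (E * D) y = y := by
    rw [map_mul, Module.End.mul_apply]
    exact hE
  obtain ⟨n, hn⟩ := h.nil (E * D) (𝔪.mul_mem_left E hD) y (hZ hyZ)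
  rw [Socle_op_pow_fix X (E * D) y hfix n] at hn
  exact hy0 hn

theorem nilpotent_of_kills_socle {X : HSys bad HH} {𝔪 : Ideal HH} {Ξ : AddSubgroup X.W}
    (h : Good0 X 𝔪 Ξ) (Y : AddSubgroup X.W) (hY : Y ≤ Ξ) (hop : ∀ (D : HH), ∀ x ∈ Y, X.op D x ∈ Y)
    (N : Module.End ℤ X.W) (hN : ∀ D : HH, Commute N (X.op D)) (hNY : ∀ y ∈ Y, N y ∈ Y)
    (hkill : ∀ y ∈ Y, (∀ D ∈ 𝔪, X.op D y = 0) → N y = 0) :
    ∃ J : ℕ, ∀ y ∈ Y, (N ^ J) y = 0 := by
  classical
  induction hc : (Y : Set X.W).ncard using Nat.strong_induction_on generalizing Y with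
  | _ c ih =>
    by_cases hbot : Y = ⊥
    · refine ⟨0, fun y hy => ?_⟩
      rw [hbot, AddSubgroup.mem_bot] at hy
      simp [hy]
    · have hYfin : (Y : Set X.W).Finite := h.fin.subset hY
      obtain ⟨s, hsY, hs0, hs⟩ := exists_socle h Y hY hop hbot
      have hNs : N s = 0 := hkill s hsY hs
      let Y' : AddSubgroup X.W := Y.map N.toAddMonoidHom
      have hY'coe : (Y' : Set X.W) = N '' (Y : Set X.W) := by
        ext w
        simp [Y']
      have hY'Y : Y' ≤ Y := by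
        rintro _ ⟨y, hy, rfl⟩
        exact hNY y hy
      have hlt : (Y' : Set X.W).ncard < c := by
        rw [← hc, hY'coe]
        refine lt_of_le_of_ne (Set.ncard_image_le hYfin) ?_
        intro heq
        have hinj : Set.InjOn N (Y : Set X.W) := (Set.ncard_image_iff hYfin).1 heq
        exact hs0 (hinj hsY Y.zero_mem (by rw [hNs, map_zero]))
      obtain ⟨J, hJ⟩ := ih _ hlt Y' (hY'Y.trans hY)
        (by
          rintro D _ ⟨y, hy, rfl⟩
          refine ⟨X.op D y, hop D y hy, ?_⟩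
          have := congrArg (fun f : Module.End ℤ X.W => f y) (hN D).eq
          simpa [Module.End.mul_apply] using this)
        (fun y hy => ⟨y, hY'Y hy, rfl⟩)
        (fun y hy => hkill y (hY'Y hy)) rfl
      refine ⟨J + 1, fun y hy => ?_⟩
      rw [pow_succ, Module.End.mul_apply]
      exact hJ (N y) ⟨y, hy, rfl⟩

theorem unit_injective {X : HSys bad HH} {T : Type} [CommRing T] [IsLocalRing T]
    [Finite (ResidueField T)] (ψ : HH →+* T) {Ξ : AddSubgroup X.W} (h : Good0 X (mOf ψ) Ξ)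
    (Δ : HH) (hΔ : IsUnit (ψ Δ)) : ∀ y ∈ Ξ, X.op Δ y = 0 → y = 0 := by
  classical
  intro y hy hΔy
  let _ : Fintype (ResidueField T) := Fintype.ofFinite _
  set q : ℕ := Fintype.card (ResidueField T) with hq
  have hq1 : 1 < q := Fintype.one_lt_card
  have hres : residue T (ψ Δ) ≠ 0 := (hΔ.map (residue T)).ne_zero
  have hpow : (residue T (ψ Δ)) ^ (q - 1) = 1 := FiniteField.pow_card_sub_one_eq_one _ hres
  set μ : HH := Δ ^ (q - 1) - 1 with hμ
  have hμm : μ ∈ mOf ψ := by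
    rw [mOf, RingHom.mem_ker, RingHom.comp_apply, hμ, map_sub, map_sub, map_pow, map_pow, hpow,
      map_one, map_one, sub_self]
  have hΔq : X.op (Δ ^ (q - 1)) y = 0 := by
    obtain ⟨m, hm⟩ : ∃ m, q - 1 = m + 1 := ⟨q - 2, by omega⟩
    rw [hm, pow_succ, map_mul, Module.End.mul_apply, hΔy, map_zero]
  have hμy : X.op μ y = -y := by
    rw [hμ, map_sub, map_one, LinearMap.sub_apply, hΔq, Module.End.one_apply, zero_sub]
  have key : ∀ n : ℕ, X.op (μ ^ n) y = 0 → y = 0 := by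
    intro n
    induction n with
    | zero => intro h0; simpa using h0
    | succ n ih =>
      intro h1
      rw [pow_succ, map_mul, Module.End.mul_apply, hμy, map_neg, neg_eq_zero] at h1
      exact ih h1
  obtain ⟨n, hn⟩ := h.nil μ hμm y hy
  exact key n hn

theorem exists_pow_smul {X : HSys bad HH} {T : Type} [CommRing T] [IsLocalRing T] (ψ : HH →+* T)
    {p : ℕ} (hpT : (p : T) ∈ maximalIdeal T) {Ξ : AddSubgroup X.W} (h : Good0 X (mOf ψ) Ξ) :
    ∃ j : ℕ, ∀ x ∈ Ξ, (p ^ j) • x = 0 := by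
  classical
  have hpm : (p : HH) ∈ mOf ψ := by
    rw [mem_mOf, map_natCast]
    exact hpT
  have hx : ∀ x ∈ Ξ, ∃ n : ℕ, (p ^ n) • x = 0 := by
    intro x hx
    obtain ⟨n, hn⟩ := h.nil (p : HH) hpm x hx
    refine ⟨n, ?_⟩
    rw [← Nat.cast_pow, map_natCast, Module.End.natCast_apply] at hn
    exact hn
  choose! n hn using hx
  refine ⟨h.fin.toFinset.sup n, fun x hxΞ => ?_⟩
  have hle : n x ≤ h.fin.toFinset.sup n := Finset.le_sup (f := n) (h.fin.mem_toFinset.2 hxΞ)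
  obtain ⟨k, hk⟩ := Nat.exists_eq_add_of_le hle
  rw [hk, pow_add, mul_comm, mul_smul, hn x hxΞ, smul_zero]

end Fermat.Agent.ORD.P0
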