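import Fermat.Agent.ORD.P0.Quad
import Fermat.Agent.ORD.P0.Socle
import Fermat.Agent.ORD.P0.Binom

/-!
# ORD / P0 / Nilp : `z_k = (s0^(p^k) - a^(p^k)) (τ - 1)` kills a good piece `Ξ` for `k ≫ 0`.

PROOF.  `Y := AddSubgroup.closure {act τ x - x | τ ∈ I, x ∈ Ξ}`.  `Y ≤ Ξ`, `Y ≤ K1`, `Y` is stable under `op D`, and under `act s0`
(`s0 (τ - 1) x = (s0 τ s0⁻¹ - 1) (s0 x)`, `I` is a subgroup).   Let `y ∈ Y[𝔪]`.  Then `p • y = 0`, and `y' := act s0 y - a • y ∈ Y[𝔪]` satisfies `act s0 y' = y'` by `quad_on_socle`.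
`y' ∈ K1`, `p • y' = 0`, `U`-periodic (`Good0.exists_U_pow`), so `y' = 0` by `hcore`.  So `N := act s0 - a` kills `Y[𝔪]`: `nilpotent_of_kills_socle` gives `J₁`, `exists_pow_smul` gives `J₂`;
`J = max J₁ J₂`, `k₀ = 2 J`, `pow_pow_eq_of_nilpotent`.
-/

set_option autoImplicit false

namespace Fermat.Agent.ORD.P0

open Fermat.Agent.GR.Adic (GQ FixesLevel)
open Fermat.Agent.GR.Asm (WeakChebotarev)
open IsLocalRing

local notation "Qbar'" => AlgebraicClosure ℚ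

variable {bad : Finset ℕ} {HH : Type} [CommRing HH]

theorem zk_kills (hcheb : WeakChebotarev) {p : ℕ} (hp : p.Prime) (hpbad : p ∈ bad)
    (X : HSys bad HH) {T : Type} [CommRing T] [IsLocalRing T] (hpT : (p : T) ∈ maximalIdeal T)
    (ψ : HH →+* T) (ρ : GaloisRepAdic T) (hatt : Attached X ψ ρ)
    (Ξ : AddSubgroup X.W) (hΞ : Good X (mOf ψ) Ξ)
    (P : ValuationSubring Qbar') (s0 : GQ) (hs0 : s0 ∈ P.inertiaSubgroupIn ℚ)
    (a : ℕ) (hs0a : ∀ ζ : Qbar', ζ ^ p = 1 → s0 ζ = ζ ^ a)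
    (htr : LinearMap.trace T ρ.V (ρ.ρ s0) - (1 + a) ∈ maximalIdeal T)
    (K1 : AddSubgroup X.W) (hK1 : ∀ τ ∈ P.inertiaSubgroupIn ℚ, ∀ x : X.W, X.act τ x - x ∈ K1)
    (hcore : ∀ y ∈ K1, p • y = 0 → (∃ n : ℕ, 0 < n ∧ (X.U ^ n) y = y) → X.act s0 y = y → y = 0) :
    ∃ k₀ : ℕ, ∀ k : ℕ, k₀ ≤ k → ∀ τ ∈ P.inertiaSubgroupIn ℚ, ∀ x ∈ Ξ,
      X.act (s0 ^ p ^ k) (X.act τ x - x) - (a ^ p ^ k) • (X.act τ x - x) = 0 := by
  classical
  set Y : AddSubgroup X.W := AddSubgroup.closure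
    {w | ∃ τ ∈ P.inertiaSubgroupIn ℚ, ∃ x ∈ Ξ, w = X.act τ x - x} with hYdef
  have hgen : ∀ τ ∈ P.inertiaSubgroupIn ℚ, ∀ x ∈ Ξ, X.act τ x - x ∈ Y := fun τ hτ x hx =>
    AddSubgroup.subset_closure ⟨τ, hτ, x, hx, rfl⟩
  have hYΞ : Y ≤ Ξ := by
    rw [hYdef, AddSubgroup.closure_le]
    rintro _ ⟨τ, _, x, hx, rfl⟩
    exact Ξ.sub_mem (hΞ.act_mem τ x hx) hx
  have hYK : Y ≤ K1 := by
    rw [hYdef, AddSubgroup.closure_le]
    rintro _ ⟨τ, hτ, x, _, rfl⟩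
    exact hK1 τ hτ x
  have hop : ∀ (D : HH), ∀ y ∈ Y, X.op D y ∈ Y := by
    intro D y hy
    induction hy using AddSubgroup.closure_induction with
    | mem w hw =>
      obtain ⟨τ, hτ, x, hx, rfl⟩ := hw
      have h1 : X.op D (X.act τ x) = X.act τ (X.op D x) := by
        have := congrArg (fun f : Module.End ℤ X.W => f x) (X.op_act D τ).eq
        simpa [Module.End.mul_apply] using this
      rw [map_sub, h1]
      exact hgen τ hτ _ (hΞ.op_mem D x hx)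
    | zero => rw [map_zero]; exact Y.zero_mem
    | add u v _ _ hu hv => rw [map_add]; exact Y.add_mem hu hv
    | neg u _ hu => rw [map_neg]; exact Y.neg_mem hu
  have hSY : ∀ y ∈ Y, X.act s0 y ∈ Y := by
    intro y hy
    induction hy using AddSubgroup.closure_induction with
    | mem w hw =>
      obtain ⟨τ, hτ, x, hx, rfl⟩ := hw
      have h1 : X.act s0 (X.act τ x) = X.act (s0 * τ * s0⁻¹) (X.act s0 x) := by
        rw [← Module.End.mul_apply, ← Module.End.mul_apply, ← map_mul, ← map_mul]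
        congr 2
        group
      rw [map_sub, h1]
      exact hgen _ (Subgroup.mul_mem _ (Subgroup.mul_mem _ hs0 hτ) (Subgroup.inv_mem _ hs0)) _
        (hΞ.act_mem s0 x hx)
    | zero => rw [map_zero]; exact Y.zero_mem
    | add u v _ _ hu hv => rw [map_add]; exact Y.add_mem hu hv
    | neg u _ hu => rw [map_neg]; exact Y.neg_mem hu
  set N : Module.End ℤ X.W := X.act s0 - (a : Module.End ℤ X.W) with hNdef
  have hNapp : ∀ y, N y = X.act s0 y - a • y := by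
    intro y
    rw [hNdef, LinearMap.sub_apply, Module.End.natCast_apply]
  have hNcomm : ∀ D : HH, Commute N (X.op D) := fun D =>
    Commute.sub_left (X.op_act D s0).symm (Nat.cast_commute a _)
  have hNY : ∀ y ∈ Y, N y ∈ Y := by
    intro y hy
    rw [hNapp]
    exact Y.sub_mem (hSY y hy) (Y.nsmul_mem hy a)
  obtain ⟨n, hn0, hU⟩ := hΞ.toGood0.exists_U_pow
  have hpm : (p : HH) ∈ mOf ψ := by
    rw [mem_mOf, map_natCast]
    exact hpT
  have hkill : ∀ y ∈ Y, (∀ D ∈ mOf ψ, X.op D y = 0) → N y = 0 := by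
    intro y hy hym
    have hpy : p • y = 0 := by
      have h1 := hym _ hpm
      rwa [map_natCast, Module.End.natCast_apply] at h1
    have hq := quad_on_socle hcheb hp hpbad X hpT ψ ρ hatt Ξ hΞ s0 a hs0a htr y (hYΞ hy) hym
    have hy' := hNY y hy
    refine hcore (N y) (hYK hy') ?_ ⟨n, hn0, hU _ (hYΞ hy')⟩ ?_
    · rw [← map_nsmul, hpy, map_zero]
    · rw [hNapp, map_sub, map_nsmul, ← sub_eq_zero, ← hq, add_smul, one_smul]
      abel
  obtain ⟨J₁, hJ₁⟩ := nilpotent_of_kills_socle hΞ.toGood0 Y hYΞ hop N hNcomm hNY hkill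
  obtain ⟨J₂, hJ₂⟩ := exists_pow_smul ψ hpT hΞ.toGood0
  have hNJ : ∀ y ∈ Y, (N ^ max J₁ J₂) y = 0 := by
    intro y hy
    obtain ⟨m, hm⟩ := Nat.exists_eq_add_of_le (le_max_left J₁ J₂)
    rw [hm, add_comm, pow_add, Module.End.mul_apply, hJ₁ y hy, map_zero]
  have hpJ : ∀ y ∈ Y, (p ^ max J₁ J₂) • y = 0 := by
    intro y hy
    obtain ⟨m, hm⟩ := Nat.exists_eq_add_of_le (le_max_right J₁ J₂)
    rw [hm, add_comm, pow_add, mul_smul, hJ₂ y (hYΞ hy), smul_zero]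
  refine ⟨2 * max J₁ J₂, fun k hk τ hτ x hx => ?_⟩
  rw [map_pow, pow_pow_eq_of_nilpotent hp Y (X.act s0) a hSY (max J₁ J₂) hNJ hpJ k hk _
    (hgen τ hτ x hx), sub_self]

end Fermat.Agent.ORD.P0
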