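import Fermat.Agent.ORD.P0.StarB

/-!
# ORD / P0 / Transfer : an element `z = (s - a')(τ - 1)` of `ℤ[G_ℚ]` killing a faithful good piece `Ξ` is `≡ 0 mod 𝔪_T^n` in `End V`.

PROOF.  `exists_pow_smul` gives `j`, `exists_appr` gives `D`, `d` (precision `max n 1`; `𝔪^(max n 1) ≤ 𝔪^n`).  `cOp_eq_zero` + `star_formula`: `op (DD g) x = 0` for all `x ∈ Ξ`, so `ψ (DD g) ∈ 𝔪^n` by `hfaith`.
`tr ((ρ s - a')(ρ τ - 1) ρ g) = tr ρ(sτg) - tr ρ(sg) - a' tr ρ(τg) + a' tr ρ(g) ≡ ψ (DD g)` (`Appr.tr`).  Then `mem_smul_top_of_trace`.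
-/

set_option autoImplicit false

namespace Fermat.Agent.ORD.P0

open Fermat.Agent.GR.Adic (GQ FixesLevel)
open Fermat.Agent.GR.Asm (WeakChebotarev)
open IsLocalRing

variable {bad : Finset ℕ} {HH : Type} [CommRing HH]

theorem transfer (hcheb : WeakChebotarev) {p : ℕ} (hp : p.Prime) (hpbad : p ∈ bad)
    (X : HSys bad HH) {T : Type} [CommRing T] [IsLocalRing T] [Finite (ResidueField T)]
    (hpT : (p : T) ∈ maximalIdeal T) (ψ : HH →+* T) (ρ : GaloisRepAdic T) (hatt : Attached X ψ ρ)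
    (hirr : ρ.residual.IsAbsolutelyIrreducible)
    (Ξ : AddSubgroup X.W) (hΞ : Good X (mOf ψ) Ξ) (n : ℕ)
    (hfaith : ∀ E : HH, (∀ x ∈ Ξ, X.op E x = 0) → ψ E ∈ maximalIdeal T ^ n)
    (s τ : GQ) (a' : ℤ)
    (hz : ∀ x ∈ Ξ, X.act s (X.act τ x - x) - a' • (X.act τ x - x) = 0) (v : ρ.V) :
    (ρ.ρ s - (a' : Module.End T ρ.V)) (ρ.ρ τ v - v) ∈ (maximalIdeal T ^ n) • (⊤ : Submodule T ρ.V) := by
  obtain ⟨j, hj⟩ := exists_pow_smul ψ hpT hΞ.toGood0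
  obtain ⟨D, d, H⟩ := exists_appr hcheb hp hpbad X ψ ρ hatt Ξ hΞ j (max n 1)
  have hc0 := cOp_eq_zero hp hirr H (le_max_right n 1) hΞ hj s τ a' hz
  have hψ : ∀ g : GQ, ψ (DD D s τ a' g) ∈ maximalIdeal T ^ n := by
    intro g
    refine hfaith _ fun x hx => ?_
    rw [← star_formula hp H hΞ hj s τ a' hz g x hx, hc0 x hx, map_zero, smul_zero]
  have htr : ∀ g : GQ, LinearMap.trace T ρ.V (ρ.ρ g) - ψ (D g) ∈ maximalIdeal T ^ n :=
    fun g => Ideal.pow_le_pow_right (le_max_left n 1) (H.tr g)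
  have hexp : ∀ g : GQ, (ρ.ρ s - (a' : Module.End T ρ.V)) * (ρ.ρ τ - 1) * ρ.ρ g
      = ρ.ρ (s * τ * g) - ρ.ρ (s * g) - a' • ρ.ρ (τ * g) + a' • ρ.ρ g := by
    intro g
    simp only [map_mul, zsmul_eq_mul]
    noncomm_ring
  have hf : ∀ g : GQ, LinearMap.trace T ρ.V
      ((ρ.ρ s - (a' : Module.End T ρ.V)) * (ρ.ρ τ - 1) * ρ.ρ g) ∈ maximalIdeal T ^ n := by
    intro g
    have e : LinearMap.trace T ρ.V ((ρ.ρ s - (a' : Module.End T ρ.V)) * (ρ.ρ τ - 1) * ρ.ρ g)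
        = (LinearMap.trace T ρ.V (ρ.ρ (s * τ * g)) - ψ (D (s * τ * g)))
          - (LinearMap.trace T ρ.V (ρ.ρ (s * g)) - ψ (D (s * g)))
          - (a' : T) * (LinearMap.trace T ρ.V (ρ.ρ (τ * g)) - ψ (D (τ * g)))
          + (a' : T) * (LinearMap.trace T ρ.V (ρ.ρ g) - ψ (D g)) + ψ (DD D s τ a' g) := by
      rw [hexp]
      simp only [DD, map_add, map_sub, map_zsmul, RingHom.map_mul ψ, map_intCast]
      simp only [zsmul_eq_mul]
      ring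
    rw [e]
    exact Ideal.add_mem _ (Ideal.add_mem _ (Ideal.sub_mem _ (Ideal.sub_mem _ (htr _) (htr _))
      (Ideal.mul_mem_left _ _ (htr _))) (Ideal.mul_mem_left _ _ (htr _))) (hψ g)
  have := mem_smul_top_of_trace ρ hirr (maximalIdeal T ^ n)
    ((ρ.ρ s - (a' : Module.End T ρ.V)) * (ρ.ρ τ - 1)) hf v
  rwa [Module.End.mul_apply, LinearMap.sub_apply (ρ.ρ τ), Module.End.one_apply] at this

end Fermat.Agent.ORD.P0
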