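import Fermat.Agent.ORD.P0.VS3
import Fermat.Agent.ORD.P0.Res
import Fermat.Agent.ORD.P0.Nilp
import Fermat.Agent.ORD.P0.Transfer

/-!
# ORD / P0 / Main : the abstract theorem behind S33.
-/

set_option autoImplicit false

namespace Fermat.Agent.ORD.P0

open Fermat.Agent.GR.Adic (GQ FixesLevel)
open Fermat.Agent.GR.Asm (WeakChebotarev)
open IsLocalRing

local notation "Qbar'" => AlgebraicClosure ℚ

variable {bad : Finset ℕ} {HH : Type} [CommRing HH]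

/-- **Abstract ordinarity theorem.** -/
theorem ordAt_of_hsys (hcheb : WeakChebotarev) {p : ℕ} (hp : p.Prime) (hpbad : p ∈ bad)
    (X : HSys bad HH) {T : Type} [CommRing T] [IsLocalRing T] [IsAdicComplete (maximalIdeal T) T]
    [Finite (ResidueField T)]
    (hpT : (p : T) ∈ maximalIdeal T) (ψ : HH →+* T) (ρ : GaloisRepAdic T) (hatt : Attached X ψ ρ)
    (hirr : ρ.residual.IsAbsolutelyIrreducible)
    (hres : (GaloisRepAdic.ofResidualGaloisRep ρ.residual).IsOrdinaryAt p)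
    (P : ValuationSubring Qbar') (hP : P.LiesOverPrime p)
    (s0 : GQ) (hs0 : s0 ∈ P.inertiaSubgroupIn ℚ)
    (a : ℕ) (hs0a : ∀ ζ : Qbar', ζ ^ p = 1 → s0 ζ = ζ ^ a) (ha : ¬ a ≡ 1 [MOD p])
    (K1 : AddSubgroup X.W) (hK1 : ∀ τ ∈ P.inertiaSubgroupIn ℚ, ∀ x : X.W, X.act τ x - x ∈ K1)
    (hcore : ∀ y ∈ K1, p • y = 0 → (∃ n : ℕ, 0 < n ∧ (X.U ^ n) y = y) → X.act s0 y = y → y = 0)
    (hfaith : Faith X ψ) :
    OrdAt ρ P := by
  have hdet := det_sub_mem hcheb hp hpbad X hpT ψ ρ hatt s0 a hs0a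
  have htr : LinearMap.trace T ρ.V (ρ.ρ s0) - (1 + a) ∈ maximalIdeal T := by
    have h1 := trace_sub_one_add_det_mem ρ hres P hP s0 hs0
    have h2 := Ideal.add_mem _ h1 hdet
    convert h2 using 1
    ring
  refine ordAt_of_approx hp hpT ρ P s0 hs0 a (isUnit_natCast_sub_one hp hpT ha) htr hdet ?_
  intro n
  obtain ⟨Ξ₀, hΞ₀, hf₀⟩ := hfaith n
  obtain ⟨Ξ, hΞ, hle⟩ := exists_good X (mOf ψ) Ξ₀ hΞ₀
  have hf : ∀ E : HH, (∀ x ∈ Ξ, X.op E x = 0) → ψ E ∈ maximalIdeal T ^ n :=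
    fun E hE => hf₀ E fun x hx => hE x (hle hx)
  obtain ⟨k₀, hk₀⟩ := zk_kills hcheb hp hpbad X hpT ψ ρ hatt Ξ hΞ P s0 hs0 a hs0a htr K1 hK1 hcore
  refine ⟨max n k₀, le_max_left _ _, fun τ hτ v => ?_⟩
  have hz : ∀ x ∈ Ξ, X.act (s0 ^ p ^ max n k₀) (X.act τ x - x)
      - ((a ^ p ^ max n k₀ : ℕ) : ℤ) • (X.act τ x - x) = 0 := by
    intro x hx
    rw [natCast_zsmul]
    exact hk₀ _ (le_max_right _ _) τ hτ x hx
  have h := transfer hcheb hp hpbad X hpT ψ ρ hatt hirr Ξ hΞ n hf (s0 ^ p ^ max n k₀) τ _ hz v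
  rw [map_pow] at h
  simpa using h

end Fermat.Agent.ORD.P0
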