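import Fermat.Agent.ORD.P0.Cheb

/-!
# ORD / P0 / Quad : `(s0 - 1)(s0 - a) = 0` on `Ξ[𝔪]`.

PROOF.  `exists_hecke_approx` with `j = 1`, `n = 1`, `g = s0` gives `D`, `d`.  A primitive `p`-th root of unity `ζ` gives `ζ^d = s0 ζ = ζ^a`, so `d ≡ a mod p`.
`ψ D ≡ tr ρ(s0) ≡ 1 + a mod 𝔪_T`, so `D - (1 + a) ∈ 𝔪 = mOf ψ` and `(p : HH) ∈ 𝔪`.  For `x ∈ Ξ[𝔪]`: `p • x = 0`; `x' = act s0 x ∈ Ξ[𝔪]` (`op` commutes with `act`);
`act s0 x' + d • act s0⁻¹ x' = op D x' = (1 + a) • x'`, and `d • x = a • x`.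
-/

set_option autoImplicit false

namespace Fermat.Agent.ORD.P0

open Fermat.Agent.GR.Adic (GQ FixesLevel)
open Fermat.Agent.GR.Asm (WeakChebotarev)
open IsLocalRing

local notation "Qbar'" => AlgebraicClosure ℚ

variable {bad : Finset ℕ} {HH : Type} [CommRing HH]

private theorem quad_modEq {p : ℕ} (hp : p.Prime) (s0 : GQ) (a d : ℕ)
    (hs0a : ∀ ζ : Qbar', ζ ^ p = 1 → s0 ζ = ζ ^ a)
    (hd : ∀ ζ : Qbar', ζ ^ p ^ 1 = 1 → s0 ζ = ζ ^ d) : (p : ℤ) ∣ (d : ℤ) - a := by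
  have : NeZero ((p : ℕ) : Qbar') := ⟨Nat.cast_ne_zero.mpr hp.ne_zero⟩
  obtain ⟨ζ₀, hζ₀⟩ := HasEnoughRootsOfUnity.exists_primitiveRoot Qbar' p
  have h1 : ζ₀ ^ a = ζ₀ ^ d := by
    rw [← hs0a ζ₀ hζ₀.pow_eq_one, hd ζ₀ (by rw [pow_one]; exact hζ₀.pow_eq_one)]
  have hfin : IsOfFinOrder ζ₀ := isOfFinOrder_iff_pow_eq_one.2 ⟨p, hp.pos, hζ₀.pow_eq_one⟩
  have h2 := hfin.pow_eq_pow_iff_modEq.1 h1
  rw [← hζ₀.eq_orderOf] at h2
  exact (Nat.modEq_iff_dvd.1 h2)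

theorem quad_on_socle (hcheb : WeakChebotarev) {p : ℕ} (hp : p.Prime) (hpbad : p ∈ bad)
    (X : HSys bad HH) {T : Type} [CommRing T] [IsLocalRing T] (hpT : (p : T) ∈ maximalIdeal T)
    (ψ : HH →+* T) (ρ : GaloisRepAdic T) (hatt : Attached X ψ ρ)
    (Ξ : AddSubgroup X.W) (hΞ : Good X (mOf ψ) Ξ)
    (s0 : GQ) (a : ℕ) (hs0a : ∀ ζ : Qbar', ζ ^ p = 1 → s0 ζ = ζ ^ a)
    (htr : LinearMap.trace T ρ.V (ρ.ρ s0) - (1 + a) ∈ maximalIdeal T)
    (x : X.W) (hx : x ∈ Ξ) (hxm : ∀ D ∈ mOf ψ, X.op D x = 0) :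
    X.act s0 (X.act s0 x) - (1 + a) • X.act s0 x + a • x = 0 := by
  obtain ⟨D, d, hζd, hrel, htrD, -⟩ :=
    exists_hecke_approx hcheb hp hpbad X ψ ρ hatt Ξ hΞ.fin hΞ.act_mem 1 1 s0
  obtain ⟨k, hk⟩ := quad_modEq hp s0 a d hs0a hζd
  rw [pow_one] at htrD
  -- `p • x = 0`
  have hpx : (p : ℤ) • x = 0 := by
    have h1 : (p : HH) ∈ mOf ψ := by rw [mem_mOf, map_natCast]; exact hpT
    have h2 := hxm _ h1
    rw [map_natCast, Module.End.natCast_apply] at h2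
    rw [natCast_zsmul]
    exact h2
  have hdx : d • x = a • x := by
    have h1 : ((d : ℤ) - a) • x = 0 := by rw [hk, mul_comm, mul_smul, hpx, smul_zero]
    rw [sub_smul, sub_eq_zero, natCast_zsmul, natCast_zsmul] at h1
    exact h1
  -- `D - (1 + a) ∈ 𝔪`
  have hD : D - (1 + a) ∈ mOf ψ := by
    rw [mem_mOf, map_sub, map_add, map_one, map_natCast]
    have := Ideal.sub_mem _ htr htrD
    have e : LinearMap.trace T ρ.V (ρ.ρ s0) - (1 + (a : T)) - (LinearMap.trace T ρ.V (ρ.ρ s0) - ψ D)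
        = ψ D - (1 + (a : T)) := by ring
    rwa [e] at this
  have hx' : X.act s0 x ∈ Ξ := hΞ.act_mem s0 x hx
  have hopD : X.op D (X.act s0 x) = (1 + a) • X.act s0 x := by
    have h1 : X.op (D - (1 + a)) (X.act s0 x) = 0 := by
      have hc := X.op_act (D - (1 + a)) s0
      have h2 := congrArg (fun f => f x) hc.eq
      simp only [Module.End.mul_apply] at h2
      rw [h2, hxm _ hD, map_zero]
    rw [map_sub, LinearMap.sub_apply, sub_eq_zero] at h1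
    rw [h1, ← Nat.cast_one (R := HH), ← Nat.cast_add, map_natCast, Module.End.natCast_apply]
  have hinv : X.act s0⁻¹ (X.act s0 x) = x := by
    rw [← Module.End.mul_apply, ← map_mul, inv_mul_cancel, map_one, Module.End.one_apply]
  have h3 := hrel _ hx'
  rw [hinv, hopD, hdx] at h3
  rw [← h3]
  abel

/-- the determinant of `ρ(s0)` is `a` modulo `𝔪_T` (same proof, needs no `Ξ`: take `Ξ = ⊥`). -/
theorem det_sub_mem (hcheb : WeakChebotarev) {p : ℕ} (hp : p.Prime) (hpbad : p ∈ bad)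
    (X : HSys bad HH) {T : Type} [CommRing T] [IsLocalRing T] (hpT : (p : T) ∈ maximalIdeal T)
    (ψ : HH →+* T) (ρ : GaloisRepAdic T) (hatt : Attached X ψ ρ)
    (s0 : GQ) (a : ℕ) (hs0a : ∀ ζ : Qbar', ζ ^ p = 1 → s0 ζ = ζ ^ a) :
    LinearMap.det (ρ.ρ s0) - (a : T) ∈ maximalIdeal T := by
  obtain ⟨D, d, hζd, -, -, hdet⟩ :=
    exists_hecke_approx hcheb hp hpbad X ψ ρ hatt ⊥ (by simp)
      (by
        intro σ x hx
        rw [AddSubgroup.mem_bot] at hx ⊢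
        rw [hx, map_zero]) 1 1 s0
  obtain ⟨k, hk⟩ := quad_modEq hp s0 a d hs0a hζd
  rw [pow_one] at hdet
  have h1 : (d : T) - (a : T) ∈ maximalIdeal T := by
    have h2 : (d : T) - (a : T) = (p : T) * (k : T) := by
      have := congrArg (Int.cast : ℤ → T) hk
      push_cast at this
      exact this
    rw [h2]
    exact Ideal.mul_mem_right _ _ hpT
  have := Ideal.add_mem _ hdet h1
  rwa [sub_add_sub_cancel] at this

end Fermat.Agent.ORD.P0
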