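import Fermat.Agent.ORD.P0.Defs

/-!
# ORD / P0 / Sat : Galois saturation of a finite piece.

`Ξ := ∑_σ σ Ξ₀` (`AddSubgroup.closure {act σ x | x ∈ Ξ₀}`).
* finite: every `x` has a finite orbit (`X.smooth`: `σ ↦ act σ x` only depends on `σ` restricted to the normal closure of the level `L`, a
  finite Galois extension; cf. `GR/Adic/S31Geom.s31_exists_normal_level`), every generator has finite order, and a finitely generated
  torsion abelian group is finite.
* `U` is injective on the finite group `Ξ₀`, hence a permutation of it, hence `U ^ n = 1` on `Ξ₀` for some `n ≥ 1`; as `U` commutes with `act σ`,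
  `U ^ n = 1` on `Ξ`, so `U` is injective on `Ξ`.
* for `D ∈ 𝔪` there is ONE `n` with `op (D ^ n) = 0` on `Ξ₀` (finite), hence on `Ξ`.
-/

set_option autoImplicit false

namespace Fermat.Agent.ORD.P0

open Fermat.Agent.GR.Adic (GQ FixesLevel)

variable {bad : Finset ℕ} {HH : Type} [CommRing HH]

/-- the orbit of an element of `W` is finite. -/
theorem finite_orbit (X : HSys bad HH) (x : X.W) : (Set.range fun σ : GQ => X.act σ x).Finite := by
  classical
  obtain ⟨L, hL, hfix⟩ := X.smooth x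
  let r : GQ → (L →ₐ[ℚ] AlgebraicClosure ℚ) :=
    fun g => (g : AlgebraicClosure ℚ →ₐ[ℚ] AlgebraicClosure ℚ).comp L.val
  have hr : ∀ g g' : GQ, r g = r g' → X.act g x = X.act g' x := by
    intro g g' h
    have h1 : FixesLevel L (g⁻¹ * g') := by
      intro y hy
      have h2 : g y = g' y := DFunLike.congr_fun h (⟨y, hy⟩ : L)
      show g⁻¹ (g' y) = y
      rw [← h2]
      exact g.symm_apply_apply y
    have h3 := hfix _ h1
    calc X.act g x = X.act g (X.act (g⁻¹ * g') x) := by rw [h3]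
      _ = X.act g' x := by
        rw [← Module.End.mul_apply, ← map_mul, mul_inv_cancel_left]
  let F : (L →ₐ[ℚ] AlgebraicClosure ℚ) → X.W :=
    fun φ => if h : ∃ g, r g = φ then X.act h.choose x else 0
  refine (Set.finite_range F).subset ?_
  rintro _ ⟨g, rfl⟩
  have hex : ∃ g', r g' = r g := ⟨g, rfl⟩
  refine ⟨r g, ?_⟩
  show (if h : ∃ g', r g' = r g then X.act h.choose x else 0) = X.act g x
  rw [dif_pos hex]
  exact hr _ _ hex.choose_spec

/-- on a good piece `U` is periodic. -/
theorem Good0.exists_U_pow {X : HSys bad HH} {𝔪 : Ideal HH} {Ξ : AddSubgroup X.W} (h : Good0 X 𝔪 Ξ) :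
    ∃ n : ℕ, 0 < n ∧ ∀ x ∈ Ξ, (X.U ^ n) x = x := by
  classical
  have hfin : Finite Ξ := h.fin
  let f : Ξ → Ξ := fun x => ⟨X.U x, h.U_mem x x.2⟩
  have hinj : Function.Injective f := by
    intro x y hxy
    have h1 : X.U (x : X.W) = X.U (y : X.W) := congrArg Subtype.val hxy
    have h2 : X.U ((x : X.W) - y) = 0 := by rw [map_sub, h1, sub_self]
    have h3 := h.U_inj _ (Ξ.sub_mem x.2 y.2) h2
    exact Subtype.ext (sub_eq_zero.1 h3)
  let e : Equiv.Perm Ξ := Equiv.ofBijective f (Finite.injective_iff_bijective.1 hinj)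
  have hpow : ∀ (k : ℕ) (x : Ξ), (((e ^ k) x : Ξ) : X.W) = (X.U ^ k) x := by
    intro k
    induction k with
    | zero => intro x; simp
    | succ k ih =>
      intro x
      rw [pow_succ', Equiv.Perm.mul_apply, pow_succ', Module.End.mul_apply, ← ih x]
      rfl
  refine ⟨orderOf e, (isOfFinOrder_of_finite e).orderOf_pos, fun x hx => ?_⟩
  rw [← hpow (orderOf e) ⟨x, hx⟩, pow_orderOf_eq_one]
  rfl

/-- a subgroup generated by a finite set of elements killed by `N > 0` is finite. -/
theorem sat_finite_closure {W : Type*} [AddCommGroup W] (S : Set W) (hS : S.Finite) (N : ℕ)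
    (hN : 0 < N) (hk : ∀ s ∈ S, N • s = 0) : ((AddSubgroup.closure S : AddSubgroup W) : Set W).Finite := by
  have hfg : AddGroup.FG (AddSubgroup.closure S) := by
    rw [AddGroup.fg_iff_addSubgroup_fg]
    exact ⟨hS.toFinset, by rw [hS.coe_toFinset]⟩
  have hall : ∀ y ∈ AddSubgroup.closure S, N • y = 0 := by
    intro y hy
    induction hy using AddSubgroup.closure_induction with
    | mem s hs => exact hk s hs
    | zero => exact smul_zero _
    | add a b _ _ ha hb => rw [smul_add, ha, hb, add_zero]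
    | neg a _ ha => rw [smul_neg, ha, neg_zero]
  have htor : IsAddTorsion (AddSubgroup.closure S) := by
    intro y
    rw [isOfFinAddOrder_iff_nsmul_eq_zero]
    exact ⟨N, hN, Subtype.ext (hall y y.2)⟩
  have : Finite (AddSubgroup.closure S) := AddCommGroup.finite_of_fg_isAddTorsion _ htor
  exact Set.toFinite _

theorem exists_good (X : HSys bad HH) (𝔪 : Ideal HH) (Ξ₀ : AddSubgroup X.W) (h : Good0 X 𝔪 Ξ₀) :
    ∃ Ξ : AddSubgroup X.W, Good X 𝔪 Ξ ∧ Ξ₀ ≤ Ξ := by
  classical
  have hfin0 : Finite Ξ₀ := h.fin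
  set S : Set X.W := ⋃ x ∈ (Ξ₀ : Set X.W), Set.range fun σ : GQ => X.act σ x with hS
  have hSfin : S.Finite := h.fin.biUnion fun x _ => finite_orbit X x
  have hmem : ∀ y, y ∈ S ↔ ∃ x ∈ Ξ₀, ∃ σ : GQ, X.act σ x = y := by
    intro y
    simp only [hS, Set.mem_iUnion, Set.mem_range, SetLike.mem_coe, exists_prop]
  -- an additive property which holds on `Ξ₀` and is transported by the Galois action
  have hind : ∀ (f : Module.End ℤ X.W), (∀ σ : GQ, Commute f (X.act σ)) →
      ∀ (g : Module.End ℤ X.W), (∀ σ : GQ, Commute g (X.act σ)) →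
      (∀ x ∈ Ξ₀, f x = g x) → ∀ y ∈ AddSubgroup.closure S, f y = g y := by
    intro f hf g hg hfg y hy
    induction hy using AddSubgroup.closure_induction with
    | mem s hs =>
      obtain ⟨x, hx, σ, rfl⟩ := (hmem s).1 hs
      have e1 : f (X.act σ x) = X.act σ (f x) := by
        rw [← Module.End.mul_apply, (hf σ).eq, Module.End.mul_apply]
      have e2 : g (X.act σ x) = X.act σ (g x) := by
        rw [← Module.End.mul_apply, (hg σ).eq, Module.End.mul_apply]
      rw [e1, e2, hfg x hx]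
    | zero => rw [map_zero, map_zero]
    | add a b _ _ ha hb => rw [map_add, map_add, ha, hb]
    | neg a _ ha => rw [map_neg, map_neg, ha]
  have hstab : ∀ (f : Module.End ℤ X.W), (∀ s ∈ S, f s ∈ S) →
      ∀ y ∈ AddSubgroup.closure S, f y ∈ AddSubgroup.closure S := by
    intro f hf y hy
    induction hy using AddSubgroup.closure_induction with
    | mem s hs => exact AddSubgroup.subset_closure (hf s hs)
    | zero => rw [map_zero]; exact AddSubgroup.zero_mem _
    | add a b _ _ ha hb => rw [map_add]; exact AddSubgroup.add_mem _ ha hb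
    | neg a _ ha => rw [map_neg]; exact AddSubgroup.neg_mem _ ha
  have hcomm1 : ∀ σ : GQ, Commute (1 : Module.End ℤ X.W) (X.act σ) := fun σ => Commute.one_left _
  have hcomm0 : ∀ σ : GQ, Commute (0 : Module.End ℤ X.W) (X.act σ) := fun σ => Commute.zero_left _
  refine ⟨AddSubgroup.closure S, ⟨⟨?_, ?_, ?_, ?_, ?_⟩, ?_⟩, ?_⟩
  · -- finiteness
    refine sat_finite_closure S hSfin (Nat.card Ξ₀) Nat.card_pos fun s hs => ?_
    obtain ⟨x, hx, σ, rfl⟩ := (hmem s).1 hs
    have h1 : Nat.card Ξ₀ • (⟨x, hx⟩ : Ξ₀) = 0 := card_nsmul_eq_zero'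
    have h2 : Nat.card Ξ₀ • x = 0 := congrArg Subtype.val h1
    rw [← map_nsmul, h2, map_zero]
  · intro D
    refine hstab _ fun s hs => ?_
    obtain ⟨x, hx, σ, rfl⟩ := (hmem s).1 hs
    refine (hmem _).2 ⟨X.op D x, h.op_mem D x hx, σ, ?_⟩
    rw [← Module.End.mul_apply, ← (X.op_act D σ).eq, Module.End.mul_apply]
  · refine hstab _ fun s hs => ?_
    obtain ⟨x, hx, σ, rfl⟩ := (hmem s).1 hs
    refine (hmem _).2 ⟨X.U x, h.U_mem x hx, σ, ?_⟩
    rw [← Module.End.mul_apply, ← (X.U_act σ).eq, Module.End.mul_apply]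
  · -- injectivity of `U`
    obtain ⟨n, hn, hU⟩ := h.exists_U_pow
    intro y hy hy0
    have h1 := hind (X.U ^ n) (fun σ => (X.U_act σ).pow_left n) 1 hcomm1
      (fun x hx => by rw [hU x hx, Module.End.one_apply]) y hy
    obtain ⟨k, rfl⟩ : ∃ k, n = k + 1 := ⟨n - 1, by omega⟩
    rw [pow_succ, Module.End.mul_apply, hy0, map_zero, Module.End.one_apply] at h1
    exact h1.symm
  · -- nilpotence
    intro D hD y hy
    have hex : ∀ x : Ξ₀, ∃ n : ℕ, X.op (D ^ n) (x : X.W) = 0 := fun x => h.nil D hD x x.2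
    choose n hn using hex
    have : Fintype Ξ₀ := Fintype.ofFinite _
    refine ⟨Finset.univ.sup n, ?_⟩
    have h1 := hind (X.op (D ^ Finset.univ.sup n)) (fun σ => X.op_act _ σ) 0 hcomm0
      (fun x hx => by
        have hle : n ⟨x, hx⟩ ≤ Finset.univ.sup n := Finset.le_sup (Finset.mem_univ _)
        obtain ⟨k, hk⟩ := Nat.exists_eq_add_of_le hle
        rw [hk, add_comm, pow_add, map_mul, Module.End.mul_apply, hn ⟨x, hx⟩, map_zero,
          LinearMap.zero_apply]) y hy
    rw [h1, LinearMap.zero_apply]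
  · intro τ
    refine hstab _ fun s hs => ?_
    obtain ⟨x, hx, σ, rfl⟩ := (hmem s).1 hs
    refine (hmem _).2 ⟨x, hx, τ * σ, ?_⟩
    rw [map_mul, Module.End.mul_apply]
  · intro x hx
    refine AddSubgroup.subset_closure ((hmem x).2 ⟨x, hx, 1, ?_⟩)
    rw [map_one, Module.End.one_apply]

/-- a common finite level for a finite subset. -/
theorem exists_level_of_finite (X : HSys bad HH) (s : Set X.W) (hs : s.Finite) :
    ∃ L : IntermediateField ℚ (AlgebraicClosure ℚ), FiniteDimensional ℚ L ∧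
      ∀ σ : GQ, FixesLevel L σ → ∀ x ∈ s, X.act σ x = x := by
  induction s, hs using Set.Finite.induction_on with
  | empty => exact ⟨⊥, inferInstance, fun _ _ _ h => h.elim⟩
  | @insert a s _ _ ih =>
    obtain ⟨L, hL, h⟩ := ih
    obtain ⟨L', hL', h'⟩ := X.smooth a
    refine ⟨L ⊔ L', IntermediateField.finiteDimensional_sup L L', fun σ hσ x hx => ?_⟩
    rcases hx with rfl | hx
    · exact h' σ (fun y hy => hσ y ((le_sup_right : L' ≤ L ⊔ L') hy))
    · exact h σ (fun y hy => hσ y ((le_sup_left : L ≤ L ⊔ L') hy)) x hx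

end Fermat.Agent.ORD.P0
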