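import Fermat.Agent.ORD.P0.Cheb
import Fermat.Agent.ORD.P0.Socle

/-!
# ORD / P0 / StarA : the anti-involution `g ↦ g^* = d(g) g⁻¹` on a good piece.

Fix a good piece `Ξ`, killed by `p ^ j`, and `n`.  `Appr` = a choice, for every `g ∈ G_ℚ`, of `D g ∈ HH`, `d g ∈ ℕ` as in `exists_hecke_approx`.
Let `s, τ ∈ G_ℚ`, `a' ∈ ℤ` with `z = (s - a')(τ - 1) = 0` on `Ξ`.   `cOp := (d τ • τ⁻¹ - 1) (d s • s⁻¹ - a')` (`= z^*`),
`DD g := D (s τ g) - D (s g) - a' D (τ g) + a' D g`.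

`star_formula` : `d g • g⁻¹ (cOp x) = op (DD g) x` for `x ∈ Ξ`.
PROOF.  `op (DD g) x = [sτg - sg - a' τg + a' g] x + [d(sτg) (sτg)⁻¹ - d(sg) (sg)⁻¹ - a' d(τg) (τg)⁻¹ + a' d(g) g⁻¹] x`.  The first bracket is `z (g x) = 0` (`g x ∈ Ξ`).
`d` is multiplicative modulo `p ^ j` (`Appr.d_mul`: evaluate on a primitive `p^j`-th root of unity; `tor_nsmul_eq_of_modEq`), so the second bracket is `d g • g⁻¹ (d τ τ⁻¹ - 1)(d s s⁻¹ - a') x`.
-/

set_option autoImplicit false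

namespace Fermat.Agent.ORD.P0

open Fermat.Agent.GR.Adic (GQ FixesLevel)
open Fermat.Agent.GR.Asm (WeakChebotarev)
open IsLocalRing

local notation "Qbar'" => AlgebraicClosure ℚ

variable {bad : Finset ℕ} {HH : Type} [CommRing HH]

/-- a choice of Hecke approximations of all `g ∈ G_ℚ` on `Ξ`. -/
structure Appr (X : HSys bad HH) {T : Type} [CommRing T] [IsLocalRing T] (ψ : HH →+* T)
    (ρ : GaloisRepAdic T) (p : ℕ) (Ξ : AddSubgroup X.W) (j n : ℕ) (D : GQ → HH) (d : GQ → ℕ) :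
    Prop where
  root : ∀ (g : GQ) (ζ : Qbar'), ζ ^ p ^ j = 1 → g ζ = ζ ^ d g
  rel : ∀ (g : GQ), ∀ x ∈ Ξ, X.act g x + d g • X.act g⁻¹ x = X.op (D g) x
  tr : ∀ g : GQ, LinearMap.trace T ρ.V (ρ.ρ g) - ψ (D g) ∈ maximalIdeal T ^ n

theorem exists_appr (hcheb : WeakChebotarev) {p : ℕ} (hp : p.Prime) (hpbad : p ∈ bad)
    (X : HSys bad HH) {T : Type} [CommRing T] [IsLocalRing T] (ψ : HH →+* T) (ρ : GaloisRepAdic T)
    (hatt : Attached X ψ ρ) (Ξ : AddSubgroup X.W) (hΞ : Good X (mOf ψ) Ξ) (j n : ℕ) :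
    ∃ (D : GQ → HH) (d : GQ → ℕ), Appr X ψ ρ p Ξ j n D d := by
  choose D d h using fun g => exists_hecke_approx hcheb hp hpbad X ψ ρ hatt Ξ hΞ.fin hΞ.act_mem j n g
  exact ⟨D, d, fun g => (h g).1, fun g => (h g).2.1, fun g => (h g).2.2.1⟩

section

variable {X : HSys bad HH} {T : Type} [CommRing T] [IsLocalRing T] {ψ : HH →+* T}
  {ρ : GaloisRepAdic T} {p : ℕ} {Ξ : AddSubgroup X.W} {j n : ℕ} {D : GQ → HH} {d : GQ → ℕ}

theorem StarA_exists_primitiveRoot {N : ℕ} (hN : N ≠ 0) : ∃ ζ : Qbar', IsPrimitiveRoot ζ N := by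
  have : NeZero N := ⟨hN⟩
  exact HasEnoughRootsOfUnity.exists_primitiveRoot Qbar' N

theorem StarA_modEq_of_pow_eq {N a b : ℕ} (hN : N ≠ 0) {ζ : Qbar'} (hζ : IsPrimitiveRoot ζ N)
    (h : ζ ^ a = ζ ^ b) : a ≡ b [MOD N] := by
  have hfin : IsOfFinOrder ζ :=
    isOfFinOrder_iff_pow_eq_one.mpr ⟨N, Nat.pos_of_ne_zero hN, hζ.pow_eq_one⟩
  rw [hζ.eq_orderOf]
  exact hfin.pow_eq_pow_iff_modEq.mp h

theorem StarA_nsmul_eq_of_modEq {W : Type*} [AddCommGroup W] {N a b : ℕ} (h : a ≡ b [MOD N])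
    {w : W} (hw : N • w = 0) : a • w = b • w := by
  have key : ∀ c : ℕ, c • w = (c % N) • w := by
    intro c
    conv_lhs => rw [← Nat.mod_add_div c N]
    rw [add_nsmul, mul_nsmul, hw, smul_zero, add_zero]
  rw [key a, key b, h]

theorem Appr.d_mul (hp : p.Prime) (H : Appr X ψ ρ p Ξ j n D d) (g h : GQ) :
    d (g * h) ≡ d g * d h [MOD p ^ j] := by
  obtain ⟨ζ, hζ⟩ := StarA_exists_primitiveRoot (pow_ne_zero j hp.ne_zero)
  apply StarA_modEq_of_pow_eq (pow_ne_zero j hp.ne_zero) hζ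
  have h1 := hζ.pow_eq_one
  rw [← H.root (g * h) ζ h1, AlgEquiv.mul_apply, H.root h ζ h1, map_pow, H.root g ζ h1, ← pow_mul]

theorem Appr.d_one (hp : p.Prime) (H : Appr X ψ ρ p Ξ j n D d) : d 1 ≡ 1 [MOD p ^ j] := by
  obtain ⟨ζ, hζ⟩ := StarA_exists_primitiveRoot (pow_ne_zero j hp.ne_zero)
  apply StarA_modEq_of_pow_eq (pow_ne_zero j hp.ne_zero) hζ
  rw [← H.root 1 ζ hζ.pow_eq_one, AlgEquiv.one_apply, pow_one]

/-- `d g` is invertible modulo `p ^ j`. -/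
theorem Appr.exists_inv (hp : p.Prime) (H : Appr X ψ ρ p Ξ j n D d) (g : GQ) :
    ∃ e : ℕ, e * d g ≡ 1 [MOD p ^ j] := by
  refine ⟨d g⁻¹, ?_⟩
  have h1 := H.d_mul hp g⁻¹ g
  rw [inv_mul_cancel] at h1
  exact h1.symm.trans (H.d_one hp)

/-- `z^* = (d τ τ⁻¹ - 1)(d s s⁻¹ - a')`. -/
noncomputable def cOp (X : HSys bad HH) (d : GQ → ℕ) (s τ : GQ) (a' : ℤ) : Module.End ℤ X.W :=
  (d τ • X.act τ⁻¹ - 1) * (d s • X.act s⁻¹ - (a' : Module.End ℤ X.W))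

/-- the Hecke element `t(z g)`. -/
noncomputable def DD (D : GQ → HH) (s τ : GQ) (a' : ℤ) (g : GQ) : HH :=
  D (s * τ * g) - D (s * g) - a' * D (τ * g) + a' * D g

theorem StarA_cOp_apply (X : HSys bad HH) (d : GQ → ℕ) (s τ : GQ) (a' : ℤ) (x : X.W) :
    cOp X d s τ a' x = d τ • X.act τ⁻¹ (d s • X.act s⁻¹ x - a' • x)
      - (d s • X.act s⁻¹ x - a' • x) := by
  simp only [cOp, Module.End.mul_apply, LinearMap.sub_apply, LinearMap.smul_apply,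
    Module.End.one_apply, Module.End.intCast_apply]

theorem star_formula (hp : p.Prime) (H : Appr X ψ ρ p Ξ j n D d) (hΞ : Good X (mOf ψ) Ξ)
    (hj : ∀ x ∈ Ξ, (p ^ j) • x = 0) (s τ : GQ) (a' : ℤ)
    (hz : ∀ x ∈ Ξ, X.act s (X.act τ x - x) - a' • (X.act τ x - x) = 0) (g : GQ) :
    ∀ x ∈ Ξ, d g • X.act g⁻¹ (cOp X d s τ a' x) = X.op (DD D s τ a' g) x := by
  intro x hx
  -- the four vectors
  set x1 := X.act g⁻¹ (X.act τ⁻¹ (X.act s⁻¹ x)) with hx1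
  set x2 := X.act g⁻¹ (X.act τ⁻¹ x) with hx2
  set x3 := X.act g⁻¹ (X.act s⁻¹ x) with hx3
  set x4 := X.act g⁻¹ x with hx4
  set y := X.act g x with hy
  have hx1m : x1 ∈ Ξ := hΞ.act_mem _ _ (hΞ.act_mem _ _ (hΞ.act_mem _ _ hx))
  have hx2m : x2 ∈ Ξ := hΞ.act_mem _ _ (hΞ.act_mem _ _ hx)
  have hx3m : x3 ∈ Ξ := hΞ.act_mem _ _ (hΞ.act_mem _ _ hx)
  have hym : y ∈ Ξ := hΞ.act_mem _ _ hx
  -- left hand side
  have hL : d g • X.act g⁻¹ (cOp X d s τ a' x)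
      = d g • (d τ • (d s • x1 - a' • x2) - (d s • x3 - a' • x4)) := by
    rw [StarA_cOp_apply]
    simp only [map_sub, map_nsmul, map_zsmul]
    rfl
  -- right hand side
  have e1 : X.op (D (s * τ * g)) x = X.act s (X.act τ y) + (d s * d τ * d g) • x1 := by
    rw [← H.rel (s * τ * g) x hx, map_mul, map_mul, Module.End.mul_apply, Module.End.mul_apply,
      mul_inv_rev, mul_inv_rev, map_mul, map_mul, Module.End.mul_apply, Module.End.mul_apply]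
    congr 1
    exact StarA_nsmul_eq_of_modEq
      (((H.d_mul hp (s * τ) g).trans ((H.d_mul hp s τ).mul_right _))) (hj _ hx1m)
  have e2 : X.op (D (s * g)) x = X.act s y + (d s * d g) • x3 := by
    rw [← H.rel (s * g) x hx, map_mul, Module.End.mul_apply,
      mul_inv_rev, map_mul, Module.End.mul_apply]
    congr 1
    exact StarA_nsmul_eq_of_modEq (H.d_mul hp s g) (hj _ hx3m)
  have e3 : X.op (D (τ * g)) x = X.act τ y + (d τ * d g) • x2 := by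
    rw [← H.rel (τ * g) x hx, map_mul, Module.End.mul_apply,
      mul_inv_rev, map_mul, Module.End.mul_apply]
    congr 1
    exact StarA_nsmul_eq_of_modEq (H.d_mul hp τ g) (hj _ hx2m)
  have e4 : X.op (D g) x = y + d g • x4 := (H.rel g x hx).symm
  have hR : X.op (DD D s τ a' g) x = X.op (D (s * τ * g)) x - X.op (D (s * g)) x
      - a' • X.op (D (τ * g)) x + a' • X.op (D g) x := by
    rw [DD, map_add, map_sub, map_sub, map_mul, map_mul, map_intCast]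
    simp only [LinearMap.add_apply, LinearMap.sub_apply, Module.End.mul_apply,
      Module.End.intCast_apply]
  have hz' := hz y hym
  rw [map_sub] at hz'
  rw [hL, hR, e1, e2, e3, e4]
  have e5 : X.act s (X.act τ y) + (d s * d τ * d g) • x1 - (X.act s y + (d s * d g) • x3)
      - a' • (X.act τ y + (d τ * d g) • x2) + a' • (y + d g • x4)
      = (X.act s (X.act τ y) - X.act s y - a' • (X.act τ y - y))
        + d g • (d τ • (d s • x1 - a' • x2) - (d s • x3 - a' • x4)) := by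
    module
  rw [e5, hz', zero_add]

theorem cOp_mem (hΞ : Good X (mOf ψ) Ξ) (s τ : GQ) (a' : ℤ) :
    ∀ x ∈ Ξ, cOp X d s τ a' x ∈ Ξ := by
  intro x hx
  rw [StarA_cOp_apply]
  have h1 : d s • X.act s⁻¹ x - a' • x ∈ Ξ :=
    Ξ.sub_mem (Ξ.nsmul_mem (hΞ.act_mem _ _ hx) _) (Ξ.zsmul_mem hx _)
  exact Ξ.sub_mem (Ξ.nsmul_mem (hΞ.act_mem _ _ h1) _) h1

end

end Fermat.Agent.ORD.P0
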