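import Fermat.Agent.ORD.P0.StarA
import Fermat.Agent.ORD.P0.GramAlg
import Fermat.Agent.ORD.P0.GramRep

/-!
# ORD / P0 / StarB : `z = 0` on `Ξ` implies `z^* = 0` on `Ξ`   (the Gram trick).

PROOF.  Write `c = cOp X d s τ a'`.
(1) `star_formula` for `g = h⁻¹` and `Appr.exists_inv`: for every `h` there is `E h ∈ HH` with `act h (c x) = op (E h) x` for all `x ∈ Ξ` (`p ^ j` kills `Ξ`).
    In particular `c x = op (E 1) x`, so `c` commutes with every `act g` on `Ξ`.
(2) `C := c Ξ` (`AddSubgroup.map`), stable under `act`, `op`.  On `C` the `act g` commute:  `g h c x = g (op (E h) x) = op (E h) (g x) = h c (g x) = h g c x`.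
(3) `exists_gram_unit` gives `g₁..g₄`.  `x i := act (g i)`, `x' i := d (g i) • act (g i)⁻¹`, `Dm i j := D (g i * g j)`.  On `C`:
    `op (Dm i j) y = act (g_i g_j) y + d (g_i g_j) • act (g_i g_j)⁻¹ y = x_i x_j y + x'_i x'_j y` (`Appr.rel`, `Appr.d_mul`, commutativity on `C`).
    `gram_kill`: `op (det Dm) = 0` on `C`.
(4) `ψ (det Dm) = det (ψ (Dm i j))` (`RingHom.map_det`) `≡ det (tr ρ(g_i g_j)) mod 𝔪_T` (`Appr.tr`, `1 ≤ n`; congruent matrices have congruent determinants: pass to `T ⧸ 𝔪`), a unit.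
    `unit_injective`: `C = 0`.
-/

set_option autoImplicit false

namespace Fermat.Agent.ORD.P0

open Fermat.Agent.GR.Adic (GQ FixesLevel)
open IsLocalRing

variable {bad : Finset ℕ} {HH : Type} [CommRing HH]
variable {X : HSys bad HH} {T : Type} [CommRing T] [IsLocalRing T] [Finite (ResidueField T)]
  {ψ : HH →+* T} {ρ : GaloisRepAdic T} {p : ℕ} {Ξ : AddSubgroup X.W} {j n : ℕ} {D : GQ → HH}
  {d : GQ → ℕ}

/-- step (1). -/
theorem exists_scalar (hp : p.Prime) (H : Appr X ψ ρ p Ξ j n D d) (hΞ : Good X (mOf ψ) Ξ)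
    (hj : ∀ x ∈ Ξ, (p ^ j) • x = 0) (s τ : GQ) (a' : ℤ)
    (hz : ∀ x ∈ Ξ, X.act s (X.act τ x - x) - a' • (X.act τ x - x) = 0) (h : GQ) :
    ∃ E : HH, ∀ x ∈ Ξ, X.act h (cOp X d s τ a' x) = X.op E x := by
  obtain ⟨e, he⟩ := H.exists_inv hp h⁻¹
  refine ⟨(e : HH) * DD D s τ a' h⁻¹, fun x hx => ?_⟩
  have h1 := star_formula hp H hΞ hj s τ a' hz h⁻¹ x hx
  rw [inv_inv] at h1
  have hmem : X.act h (cOp X d s τ a' x) ∈ Ξ := hΞ.act_mem h _ (cOp_mem hΞ s τ a' x hx)
  have h2 := Fermat.Agent.TOR.tor_nsmul_eq_of_modEq he (hj _ hmem)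
  rw [one_smul, mul_smul, h1] at h2
  rw [map_mul, map_natCast, Module.End.mul_apply, Module.End.natCast_apply, h2]

theorem cOp_eq_zero (hp : p.Prime) (hirr : ρ.residual.IsAbsolutelyIrreducible)
    (H : Appr X ψ ρ p Ξ j n D d) (hn : 1 ≤ n) (hΞ : Good X (mOf ψ) Ξ)
    (hj : ∀ x ∈ Ξ, (p ^ j) • x = 0) (s τ : GQ) (a' : ℤ)
    (hz : ∀ x ∈ Ξ, X.act s (X.act τ x - x) - a' • (X.act τ x - x) = 0) :
    ∀ x ∈ Ξ, cOp X d s τ a' x = 0 := by
  classical
  -- (1)
  choose E hE using fun h => exists_scalar hp H hΞ hj s τ a' hz h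
  set c := cOp X d s τ a' with hc
  have hcΞ : ∀ x ∈ Ξ, c x ∈ Ξ := cOp_mem hΞ s τ a'
  have hoa : ∀ (F : HH) (g : GQ) (y : X.W), X.op F (X.act g y) = X.act g (X.op F y) := by
    intro F g y
    have := congrArg (fun f : Module.End ℤ X.W => f y) (X.op_act F g).eq
    simpa [Module.End.mul_apply] using this
  have hoo : ∀ (F G : HH) (y : X.W), X.op F (X.op G y) = X.op G (X.op F y) := by
    intro F G y
    rw [← Module.End.mul_apply, ← Module.End.mul_apply, ← map_mul, ← map_mul, mul_comm]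
  have hc1 : ∀ x ∈ Ξ, c x = X.op (E 1) x := by
    intro x hx
    rw [← hE 1 x hx, map_one, Module.End.one_apply]
  have hcg : ∀ (g : GQ), ∀ x ∈ Ξ, c (X.act g x) = X.act g (c x) := by
    intro g x hx
    rw [hc1 _ (hΞ.act_mem g x hx), hc1 x hx, hoa]
  have hco : ∀ (F : HH), ∀ x ∈ Ξ, c (X.op F x) = X.op F (c x) := by
    intro F x hx
    rw [hc1 _ (hΞ.op_mem F x hx), hc1 x hx, hoo]
  -- (2)
  let C : AddSubgroup X.W := Ξ.map c.toAddMonoidHom
  have hCmem : ∀ x ∈ Ξ, c x ∈ C := fun x hx => ⟨x, hx, rfl⟩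
  have hCΞ : ∀ y ∈ C, y ∈ Ξ := by
    rintro _ ⟨x, hx, rfl⟩
    exact hcΞ x hx
  have hCact : ∀ (g : GQ), ∀ y ∈ C, X.act g y ∈ C := by
    rintro g _ ⟨x, hx, rfl⟩
    exact ⟨X.act g x, hΞ.act_mem g x hx, hcg g x hx⟩
  have hCop : ∀ (F : HH), ∀ y ∈ C, X.op F y ∈ C := by
    rintro F _ ⟨x, hx, rfl⟩
    exact ⟨X.op F x, hΞ.op_mem F x hx, hco F x hx⟩
  have hcomm : ∀ (g h : GQ), ∀ y ∈ C, X.act g (X.act h y) = X.act h (X.act g y) := by
    rintro g h _ ⟨x, hx, rfl⟩
    show X.act g (X.act h (c x)) = X.act h (X.act g (c x))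
    rw [hE h x hx, ← hoa, ← hE h _ (hΞ.act_mem g x hx), hcg g x hx]
  -- (3)
  obtain ⟨g, hg⟩ := exists_gram_unit ρ hirr
  have hkill := gram_kill X.op C (fun i => X.act (g i)) (fun i => d (g i) • X.act (g i)⁻¹)
    hCop (fun i y hy => hCact (g i) y hy)
    (fun i y hy => by
      rw [LinearMap.smul_apply]
      exact C.nsmul_mem (hCact _ y hy) _)
    (fun i j y hy => hcomm _ _ y hy)
    (fun i j y hy => by
      rw [LinearMap.smul_apply, LinearMap.smul_apply, map_nsmul, hcomm _ _ y hy])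
    (fun i j y hy => by
      simp only [LinearMap.smul_apply, map_nsmul]
      rw [hcomm _ _ y hy, smul_comm])
    (fun F i y _ => hoa F _ y)
    (fun F i y _ => by
      rw [LinearMap.smul_apply, LinearMap.smul_apply, map_nsmul, hoa])
    (Matrix.of fun i j => D (g i * g j))
    (fun i j y hy => by
      rw [Matrix.of_apply, ← H.rel (g i * g j) y (hCΞ y hy), map_mul, Module.End.mul_apply,
        mul_inv_rev, map_mul, Module.End.mul_apply, hcomm (g j)⁻¹ (g i)⁻¹ y hy]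
      simp only [LinearMap.smul_apply, map_nsmul]
      rw [smul_smul, mul_comm (d (g j))]
      congr 1
      exact Fermat.Agent.TOR.tor_nsmul_eq_of_modEq (H.d_mul hp (g i) (g j))
        (hj _ (hΞ.act_mem _ _ (hΞ.act_mem _ _ (hCΞ y hy)))))
  -- (4)
  have hunit : IsUnit (ψ (Matrix.det (Matrix.of fun i j => D (g i * g j)))) := by
    have hres : residue T (ψ (Matrix.det (Matrix.of fun i j => D (g i * g j)))) =
        residue T (Matrix.det (Matrix.of fun i j => LinearMap.trace T ρ.V (ρ.ρ (g i * g j)))) := by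
      rw [RingHom.map_det, RingHom.map_det, RingHom.map_det]
      congr 1
      ext i j
      simp only [RingHom.mapMatrix_apply, Matrix.map_apply, Matrix.of_apply]
      have h1 := Ideal.pow_le_self (I := maximalIdeal T) (by omega : n ≠ 0) (H.tr (g i * g j))
      rw [← residue_eq_zero_iff, map_sub, sub_eq_zero] at h1
      exact h1.symm
    have h2 : IsUnit (residue T (ψ (Matrix.det (Matrix.of fun i j => D (g i * g j))))) := by
      rw [hres]
      exact hg.map _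
    exact isUnit_of_map_unit (residue T) _ h2
  intro x hx
  exact unit_injective ψ hΞ.toGood0 _ hunit (c x) (hcΞ x hx) (hkill (c x) (hCmem x hx))

end Fermat.Agent.ORD.P0
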