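import Fermat.Agent.ORD.P0.Defs

/-!
# ORD / P0 / VSide : the representation side.

`ρ` a rank two representation over a complete local ring `T`, `s0 ∈ I` with `charpoly ρ(s0) ≡ (X - 1)(X - a) mod 𝔪_T`,
`a ≢ 1`.  If for every `n` there is `k ≥ n` with `(ρ(s0)^(p^k) - a^(p^k)) (ρ(τ) - 1) ≡ 0 mod 𝔪_T^n` for all `τ ∈ I`, then `ρ`
is ordinary at `P`.

PROOF.  Hensel (`T` is Henselian: `IsAdicComplete.henselianRing`): `charpoly ρ(s0) = (X - α)(X - β)`, `α ≡ a`, `β ≡ 1`, `α - β` a unit.
`e_α = (S - β)/(α - β)`, `e_β = (S - α)/(β - α)` (`S = ρ(s0)`) are orthogonal idempotents with sum `1` (Cayley--Hamilton).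
`L := range e_α = ker e_β`.  `V = L ⊕ L'`, both are finite projective, hence free; both are nonzero modulo `𝔪_T` (otherwise
`S ≡ β` or `S ≡ α` is scalar mod `𝔪`, and the charpoly would be a square: contradiction with `a ≢ 1`), so both have rank one (VS1).
`S^(p^k) - a^(p^k) = (α^(p^k) - a^(p^k)) e_α + (β^(p^k) - a^(p^k)) e_β`,  `α^(p^k) - a^(p^k) ∈ 𝔪^(k+1)`  (`x ≡ y mod 𝔪^i ⟹ x^p ≡ y^p mod 𝔪^(i+1)`
because `p ∈ 𝔪`), `β^(p^k) - a^(p^k) ≡ 1 - a` is a unit.  So `e_β (ρ(τ) - 1) ∈ 𝔪^n End V` for all `n`, hence `= 0` (VS2).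
`L = (S - 1) L ⊆ ∑_τ (ρ(τ) - 1) V ⊆ L`, and `I` is normal in `D` (VS3).
-/

set_option autoImplicit false

namespace Fermat.Agent.ORD.P0

open Fermat.Agent.GR.Adic (GQ)
open IsLocalRing Polynomial

local notation "Qbar'" => AlgebraicClosure ℚ

variable {T : Type} [CommRing T] [IsLocalRing T] [IsAdicComplete (maximalIdeal T) T]

omit [IsAdicComplete (maximalIdeal T) T] in
theorem VS1_isUnit_of_sub_mem {u w : T} (hu : IsUnit u) (h : w - u ∈ maximalIdeal T) :
    IsUnit w := by
  by_contra hw
  have h1 : w ∈ maximalIdeal T := (mem_maximalIdeal w).2 hw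
  have h2 : u ∈ maximalIdeal T := by
    have : u = w - (w - u) := by ring
    rw [this]
    exact Ideal.sub_mem _ h1 h
  exact (mem_maximalIdeal u).1 h2 hu

/-- Hensel: the roots of `X² - t X + d`, `t ≡ 1 + a`, `d ≡ a`, `a - 1` a unit. -/
theorem VS1_exists_roots (t d a : T) (ha : IsUnit (a - 1)) (ht : t - (1 + a) ∈ maximalIdeal T)
    (hd : d - a ∈ maximalIdeal T) :
    ∃ α β : T, α - a ∈ maximalIdeal T ∧ β - 1 ∈ maximalIdeal T ∧ α + β = t ∧ α * β = d ∧
      IsUnit (α - β) := by
  have hH : HenselianRing T (maximalIdeal T) := IsAdicComplete.henselianRing T (maximalIdeal T)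
  have hmonic : (X ^ 2 - C t * X + C d : T[X]).Monic := by monicity!
  have hev : (X ^ 2 - C t * X + C d : T[X]).eval a ∈ maximalIdeal T := by
    have : (X ^ 2 - C t * X + C d : T[X]).eval a = (d - a) - a * (t - (1 + a)) := by
      simp only [eval_add, eval_sub, eval_pow, eval_X, eval_mul, eval_C]
      ring
    rw [this]
    exact Ideal.sub_mem _ hd (Ideal.mul_mem_left _ _ ht)
  have hder : IsUnit ((X ^ 2 - C t * X + C d : T[X]).derivative.eval a) := by
    have : (X ^ 2 - C t * X + C d : T[X]).derivative.eval a = 2 * a - t := by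
      simp only [derivative_add, derivative_sub, derivative_X_pow, derivative_mul, derivative_C,
        derivative_X, eval_add, eval_sub, eval_mul, eval_C, eval_X, eval_pow, zero_mul, mul_one,
        zero_add, add_zero, Nat.cast_ofNat, Nat.add_one_sub_one, pow_one, eval_ofNat, map_ofNat]
    rw [this]
    refine VS1_isUnit_of_sub_mem ha ?_
    have : 2 * a - t - (a - 1) = -(t - (1 + a)) := by ring
    rw [this]
    exact (maximalIdeal T).neg_mem ht
  obtain ⟨α, hα, hαa⟩ := HenselianRing.is_henselian _ hmonic a hev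
    (hder.map (Ideal.Quotient.mk (maximalIdeal T)))
  have hα' : α ^ 2 - t * α + d = 0 := by
    have := hα
    simp only [IsRoot, eval_add, eval_sub, eval_pow, eval_X, eval_mul, eval_C] at this
    exact this
  refine ⟨α, t - α, hαa, ?_, by ring, by linear_combination (-1 : T) * hα', ?_⟩
  · have : t - α - 1 = (t - (1 + a)) - (α - a) := by ring
    rw [this]
    exact Ideal.sub_mem _ ht hαa
  · refine VS1_isUnit_of_sub_mem ha ?_
    have : α - (t - α) - (a - 1) = 2 * (α - a) - (t - (1 + a)) := by ring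
    rw [this]
    exact Ideal.sub_mem _ (Ideal.mul_mem_left _ _ hαa) ht

omit [IsLocalRing T] [IsAdicComplete (maximalIdeal T) T] in
/-- a basis from a `2 × 2` matrix with invertible determinant. -/
theorem VS1_exists_basis {V : Type} [AddCommGroup V] [Module T V] (c : Module.Basis (Fin 2) T V)
    (u0 u1 w0 w1 : T) (h : IsUnit (u0 * w1 - w0 * u1)) :
    ∃ b : Module.Basis (Fin 2) T V, b 0 = u0 • c 0 + u1 • c 1 ∧ b 1 = w0 • c 0 + w1 • c 1 := by
  have hP : IsUnit (!![u0, w0; u1, w1] : Matrix (Fin 2) (Fin 2) T).det := by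
    rw [Matrix.det_fin_two_of]; exact h
  refine ⟨c.map (Matrix.toLinearEquiv c _ hP), ?_, ?_⟩
  · rw [Module.Basis.map_apply]
    show Matrix.toLin c c _ (c 0) = _
    rw [Matrix.toLin_self, Fin.sum_univ_two]
    simp
  · rw [Module.Basis.map_apply]
    show Matrix.toLin c c _ (c 1) = _
    rw [Matrix.toLin_self, Fin.sum_univ_two]
    simp

/-- (VS1) **Hensel splitting** of a rank two endomorphism with distinct eigenvalues modulo `𝔪`. -/
theorem exists_splitting {V : Type} [AddCommGroup V] [Module T V] [Module.Free T V] [Module.Finite T V]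
    (h2 : Module.finrank T V = 2) (S : Module.End T V) (a : T) (ha : IsUnit (a - 1))
    (htr : LinearMap.trace T V S - (1 + a) ∈ maximalIdeal T)
    (hdet : LinearMap.det S - a ∈ maximalIdeal T) :
    ∃ (α β : T) (b : Module.Basis (Fin 2) T V), α - a ∈ maximalIdeal T ∧ β - 1 ∈ maximalIdeal T ∧
      S (b 0) = α • b 0 ∧ S (b 1) = β • b 1 := by
  let c : Module.Basis (Fin 2) T V := Module.finBasisOfFinrankEq T V h2
  set m00 : T := c.repr (S (c 0)) 0 with h00
  set m10 : T := c.repr (S (c 0)) 1 with h10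
  set m01 : T := c.repr (S (c 1)) 0 with h01
  set m11 : T := c.repr (S (c 1)) 1 with h11
  have hS0 : S (c 0) = m00 • c 0 + m10 • c 1 := by
    conv_lhs => rw [← c.sum_repr (S (c 0)), Fin.sum_univ_two]
  have hS1 : S (c 1) = m01 • c 0 + m11 • c 1 := by
    conv_lhs => rw [← c.sum_repr (S (c 1)), Fin.sum_univ_two]
  have htr' : LinearMap.trace T V S = m00 + m11 := by
    rw [LinearMap.trace_eq_matrix_trace T c S, Matrix.trace_fin_two, LinearMap.toMatrix_apply,
      LinearMap.toMatrix_apply]
  have hdet' : LinearMap.det S = m00 * m11 - m01 * m10 := by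
    rw [← LinearMap.det_toMatrix c S, Matrix.det_fin_two, LinearMap.toMatrix_apply,
      LinearMap.toMatrix_apply, LinearMap.toMatrix_apply, LinearMap.toMatrix_apply]
  obtain ⟨α, β, hα, hβ, hsum, hprod, hunit⟩ := VS1_exists_roots _ _ a ha htr hdet
  rw [htr'] at hsum
  rw [hdet'] at hprod
  have hβ' : β = m00 + m11 - α := by linear_combination hsum
  have hchar : (m00 - α) * (m11 - α) = m01 * m10 := by linear_combination α * hsum - hprod
  have hxy : IsUnit ((α - m00) + (α - m11)) := by
    have : (α - m00) + (α - m11) = α - β := by rw [hβ']; ring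
    rw [this]; exact hunit
  have hSv : ∀ u0 u1 : T, S (u0 • c 0 + u1 • c 1) =
      (u0 * m00 + u1 * m01) • c 0 + (u0 * m10 + u1 * m11) • c 1 := by
    intro u0 u1
    rw [map_add, map_smul, map_smul, hS0, hS1]
    module
  rcases isUnit_or_isUnit_of_isUnit_add hxy with hx | hy
  · -- `m00 - α` is a unit
    obtain ⟨b, hb0, hb1⟩ := VS1_exists_basis c m01 (α - m00) (m00 - α) m10 (by
      have : m01 * m10 - (m00 - α) * (α - m00) = (α - m00) * (α - β) := by
        rw [hβ']; linear_combination (-1 : T) * hchar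
      rw [this]; exact hx.mul hunit)
    refine ⟨α, β, b, hα, hβ, ?_, ?_⟩
    · rw [hb0, hSv, smul_add, smul_smul, smul_smul]
      congr 2
      · ring
      · linear_combination (-1 : T) * hchar
    · rw [hb1, hSv, smul_add, smul_smul, smul_smul]
      congr 2
      · rw [hβ']; linear_combination (-1 : T) * hchar
      · rw [hβ']; ring
  · -- `m11 - α` is a unit
    obtain ⟨b, hb0, hb1⟩ := VS1_exists_basis c (α - m11) m10 m01 (m11 - α) (by
      have : (α - m11) * (m11 - α) - m01 * m10 = -((α - m11) * (α - β)) := by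
        rw [hβ']; linear_combination hchar
      rw [this]; exact (hy.mul hunit).neg)
    refine ⟨α, β, b, hα, hβ, ?_, ?_⟩
    · rw [hb0, hSv, smul_add, smul_smul, smul_smul]
      congr 2
      · linear_combination (-1 : T) * hchar
      · ring
    · rw [hb1, hSv, smul_add, smul_smul, smul_smul]
      congr 2
      · rw [hβ']; ring
      · rw [hβ']; linear_combination (-1 : T) * hchar

end Fermat.Agent.ORD.P0
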