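import Fermat.Agent.ORD.P0.Defs

/-!
# ORD / P0 / VSide : the representation side.

`ρ` a rank two representation over a complete local ring `T`, `s0 ∈ I` with `charpoly ρ(s0) ≡ (X - 1)(X - a) mod 𝔪_T`,
`a ≢ 1`.  If for every `n` there is `k ≥ n` with `(ρ(s0)^(p^k) - a^(p^k)) (ρ(τ) - 1) ≡ 0 mod 𝔪_T^n` for all `τ ∈ I`, then `ρ`
is ordinary at `P`.

PROOF.  Hensel (`T` is Henselian: `IsAdicComplete.henselianRing`): `charpoly ρ(s0) = (X - α)(X - β)`, `α ≡ a`, `β ≡ 1`, `α - β` a unit.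
`e_α = (S - β)/(α - β)`, `e_β = (S - α)/(β - α)` (`S = ρ(s0)`) are orthogonal idempotents with sum `1` (Cayley--Hamilton).
`L := range e_α = ker e_β`.  `V = L ⊕ L'`, both are finite projective, hence free; both are nonzero modulo `𝔪_T` (otherwise
`S ≡ β` or `S ≡ α` is scalar mod `𝔪`, and the charpoly would be a square: contradiction with `a ≢ 1`), so both have rank one (VS1).
`S^(p^k) - a^(p^k) = (α^(p^k) - a^(p^k)) e_α + (β^(p^k) - a^(p^k)) e_β`,  `α^(p^k) - a^(p^k) ∈ 𝔪^(k+1)`  (`x ≡ y mod 𝔪^i ⟹ x^p ≡ y^p mod 𝔪^(i+1)`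
because `p ∈ 𝔪`), `β^(p^k) - a^(p^k) ≡ 1 - a` is a unit.  So `e_β (ρ(τ) - 1) ∈ 𝔪^n End V` for all `n`, hence `= 0` (VS2).
`L = (S - 1) L ⊆ ∑_τ (ρ(τ) - 1) V ⊆ L`, and `I` is normal in `D` (VS3).
-/

set_option autoImplicit false

namespace Fermat.Agent.ORD.P0

open Fermat.Agent.GR.Adic (GQ)
open IsLocalRing Polynomial

local notation "Qbar'" => AlgebraicClosure ℚ

variable {T : Type} [CommRing T] [IsLocalRing T] [IsAdicComplete (maximalIdeal T) T]

private theorem vs2_pow_pow_sub_mem {R : Type*} [CommRing R] (I : Ideal R) {p : ℕ}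
    (hp : (p : R) ∈ I) {x y : R} (h : x - y ∈ I) (k : ℕ) :
    x ^ p ^ k - y ^ p ^ k ∈ I ^ (k + 1) := by
  induction k with
  | zero => simpa using h
  | succ k ih =>
    rw [pow_succ p k, pow_mul, pow_mul, ← geom_sum₂_mul, pow_succ' I]
    refine Ideal.mul_mem_mul ?_ ih
    have hxy : Ideal.Quotient.mk I x = Ideal.Quotient.mk I y := Ideal.Quotient.eq.2 h
    rw [← Ideal.Quotient.eq_zero_iff_mem, RingHom.map_geom_sum₂, map_pow, map_pow, hxy,
      geom_sum₂_self, ← map_natCast (Ideal.Quotient.mk I), Ideal.Quotient.eq_zero_iff_mem.2 hp,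
      zero_mul]

/-- `x ≡ y mod 𝔪 ⟹ x^(p^k) ≡ y^(p^k) mod 𝔪^(k+1)` when `p ∈ 𝔪`. -/
theorem pow_pow_sub_mem {p : ℕ} (hpT : (p : T) ∈ maximalIdeal T) {x y : T}
    (h : x - y ∈ maximalIdeal T) (k : ℕ) : x ^ p ^ k - y ^ p ^ k ∈ maximalIdeal T ^ (k + 1) :=
  vs2_pow_pow_sub_mem _ hpT h k

private theorem vs2_pow_apply {R V : Type*} [CommRing R] [AddCommGroup V] [Module R V]
    (S : Module.End R V) {x : V} {α : R} (h : S x = α • x) (m : ℕ) : (S ^ m) x = α ^ m • x := by
  induction m with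
  | zero => simp
  | succ m ih => rw [pow_succ, Module.End.mul_apply, h, map_smul, ih, smul_smul, pow_succ']

private theorem vs2_coord_mem {R V ι : Type*} [CommRing R] [AddCommGroup V] [Module R V]
    (b : Module.Basis ι R V) (I : Ideal R) {x : V} (hx : x ∈ I • (⊤ : Submodule R V)) (i : ι) :
    b.coord i x ∈ I := by
  refine Submodule.smul_induction_on hx ?_ ?_
  · intro r hr n _
    rw [map_smul, smul_eq_mul]
    exact Ideal.mul_mem_right _ _ hr
  · intro x y hx hy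
    rw [map_add]
    exact Ideal.add_mem _ hx hy

omit [IsAdicComplete (maximalIdeal T) T] in
private theorem vs2_isUnit {p : ℕ} (hp : p.Prime) (hpT : (p : T) ∈ maximalIdeal T) (a : ℕ)
    (ha : IsUnit ((a : T) - 1)) (β : T) (hβ : β - 1 ∈ maximalIdeal T) (k : ℕ) :
    IsUnit (β ^ p ^ k - ((a ^ p ^ k : ℕ) : T)) := by
  have hp0 : ((p : ℕ) : ResidueField T) = 0 := by
    rw [← map_natCast (residue T), residue_eq_zero_iff]
    exact hpT
  have : Fact p.Prime := ⟨hp⟩
  have : CharP (ResidueField T) p := ringChar.of_eq (CharP.ringChar_of_prime_eq_zero hp hp0)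
  have hβ' : residue T β = 1 := by
    have := (residue_eq_zero_iff (β - 1)).2 hβ
    rw [map_sub, map_one, sub_eq_zero] at this
    exact this
  have ha' : residue T ((a : T) - 1) ≠ 0 := by
    rw [Ne, residue_eq_zero_iff]
    exact fun h => (mem_maximalIdeal _).1 h ha
  by_contra hcon
  have h1 : residue T (β ^ p ^ k - ((a ^ p ^ k : ℕ) : T)) = 0 :=
    (residue_eq_zero_iff _).2 ((mem_maximalIdeal _).2 hcon)
  rw [map_sub, map_pow, hβ', one_pow, Nat.cast_pow, map_pow] at h1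
  have h2 : (residue T ((a : T) - 1)) ^ p ^ k = 0 := by
    rw [map_sub, map_one, sub_pow_char_pow, one_pow, ← neg_sub, h1, neg_zero]
  exact ha' (pow_eq_zero_iff (pow_ne_zero _ hp.ne_zero) |>.1 h2)

/-- (VS2) the line `T b₀` contains `(R - 1) V` as soon as `(S^(p^k) - a^(p^k)) (R - 1) → 0`. -/
theorem sub_mem_line {V : Type} [AddCommGroup V] [Module T V] [Module.Free T V] [Module.Finite T V]
    {p : ℕ} (hp : p.Prime) (hpT : (p : T) ∈ maximalIdeal T)
    (S : Module.End T V) (a : ℕ) (ha : IsUnit ((a : T) - 1))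
    (α β : T) (b : Module.Basis (Fin 2) T V) (hα : α - a ∈ maximalIdeal T) (hβ : β - 1 ∈ maximalIdeal T)
    (h0 : S (b 0) = α • b 0) (h1 : S (b 1) = β • b 1) (R : Module.End T V)
    (h : ∀ n : ℕ, ∃ k : ℕ, n ≤ k ∧ ∀ v : V,
      (S ^ p ^ k - ((a ^ p ^ k : ℕ) : Module.End T V)) (R v - v) ∈ (maximalIdeal T ^ n) • (⊤ : Submodule T V))
    (v : V) : R v - v ∈ T ∙ b 0 := by
  set w := R v - v with hw
  have hsum : w = b.repr w 0 • b 0 + b.repr w 1 • b 1 := by
    conv_lhs => rw [← b.sum_repr w, Fin.sum_univ_two]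
  have hc1 : b.repr w 1 = 0 := by
    refine IsHausdorff.haus (inferInstance : IsHausdorff (maximalIdeal T) T) _ fun n => ?_
    rw [SModEq.zero, smul_eq_mul, Ideal.mul_top]
    obtain ⟨k, -, hk⟩ := h n
    have h2 := vs2_coord_mem b _ (hk v) 1
    rw [← hw] at h2
    have h3 : b.coord 1 ((S ^ p ^ k - ((a ^ p ^ k : ℕ) : Module.End T V)) w)
        = (β ^ p ^ k - ((a ^ p ^ k : ℕ) : T)) * b.repr w 1 := by
      have e1 : (S ^ p ^ k) w
          = (b.repr w 0 * α ^ p ^ k) • b 0 + (b.repr w 1 * β ^ p ^ k) • b 1 := by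
        conv_lhs => rw [hsum]
        rw [map_add, map_smul, map_smul, vs2_pow_apply S h0, vs2_pow_apply S h1, smul_smul,
          smul_smul]
      rw [LinearMap.sub_apply, Module.End.natCast_apply, map_sub, map_nsmul, e1, map_add,
        map_smul, map_smul]
      simp only [Module.Basis.coord_apply, Module.Basis.repr_self, Finsupp.single_apply]
      simp
      ring
    rw [h3] at h2
    exact (Ideal.unit_mul_mem_iff_mem _ (vs2_isUnit hp hpT a ha β hβ k)).1 h2
  rw [hsum, hc1, zero_smul, add_zero]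
  exact Submodule.smul_mem _ _ (Submodule.mem_span_singleton_self _)

end Fermat.Agent.ORD.P0
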