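import Fermat.Agent.ORD.P0.VS1
import Fermat.Agent.ORD.P0.VS2

/-!
# ORD / P0 / VSide : the representation side.

`ρ` a rank two representation over a complete local ring `T`, `s0 ∈ I` with `charpoly ρ(s0) ≡ (X - 1)(X - a) mod 𝔪_T`,
`a ≢ 1`.  If for every `n` there is `k ≥ n` with `(ρ(s0)^(p^k) - a^(p^k)) (ρ(τ) - 1) ≡ 0 mod 𝔪_T^n` for all `τ ∈ I`, then `ρ`
is ordinary at `P`.

PROOF.  Hensel (`T` is Henselian: `IsAdicComplete.henselianRing`): `charpoly ρ(s0) = (X - α)(X - β)`, `α ≡ a`, `β ≡ 1`, `α - β` a unit.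
`e_α = (S - β)/(α - β)`, `e_β = (S - α)/(β - α)` (`S = ρ(s0)`) are orthogonal idempotents with sum `1` (Cayley--Hamilton).
`L := range e_α = ker e_β`.  `V = L ⊕ L'`, both are finite projective, hence free; both are nonzero modulo `𝔪_T` (otherwise
`S ≡ β` or `S ≡ α` is scalar mod `𝔪`, and the charpoly would be a square: contradiction with `a ≢ 1`), so both have rank one (VS1).
`S^(p^k) - a^(p^k) = (α^(p^k) - a^(p^k)) e_α + (β^(p^k) - a^(p^k)) e_β`,  `α^(p^k) - a^(p^k) ∈ 𝔪^(k+1)`  (`x ≡ y mod 𝔪^i ⟹ x^p ≡ y^p mod 𝔪^(i+1)`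
because `p ∈ 𝔪`), `β^(p^k) - a^(p^k) ≡ 1 - a` is a unit.  So `e_β (ρ(τ) - 1) ∈ 𝔪^n End V` for all `n`, hence `= 0` (VS2).
`L = (S - 1) L ⊆ ∑_τ (ρ(τ) - 1) V ⊆ L`, and `I` is normal in `D` (VS3).
-/

set_option autoImplicit false

namespace Fermat.Agent.ORD.P0

open Fermat.Agent.GR.Adic (GQ)
open IsLocalRing Polynomial

local notation "Qbar'" => AlgebraicClosure ℚ

variable {T : Type} [CommRing T] [IsLocalRing T] [IsAdicComplete (maximalIdeal T) T]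

private theorem VS3_aux {G : Type*} [Group G] (H : Subgroup G) (N : Subgroup H) (hN : N.Normal)
    {d i : G} (hd : d ∈ H) (hi : i ∈ N.map H.subtype) : d * i * d⁻¹ ∈ N.map H.subtype := by
  obtain ⟨i', hi', rfl⟩ := hi
  exact ⟨⟨d, hd⟩ * i' * ⟨d, hd⟩⁻¹, hN.conj_mem i' hi' ⟨d, hd⟩, rfl⟩

private theorem VS3_normal (P : ValuationSubring Qbar') : (P.inertiaSubgroup ℚ).Normal :=
  MonoidHom.normal_ker _

/-- inertia is normal in the decomposition group. -/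
private theorem VS3_conj_mem {P : ValuationSubring Qbar'} {d i : GQ}
    (hd : d ∈ P.decompositionSubgroup ℚ) (hi : i ∈ P.inertiaSubgroupIn ℚ) :
    d * i * d⁻¹ ∈ P.inertiaSubgroupIn ℚ :=
  VS3_aux _ _ (VS3_normal P) hd hi

/-- (VS) **the representation side of S33.** -/
theorem ordAt_of_approx {p : ℕ} (hp : p.Prime) (hpT : (p : T) ∈ maximalIdeal T) (ρ : GaloisRepAdic T)
    (P : ValuationSubring Qbar') (s0 : GQ) (hs0 : s0 ∈ P.inertiaSubgroupIn ℚ)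
    (a : ℕ) (ha : IsUnit ((a : T) - 1))
    (htr : LinearMap.trace T ρ.V (ρ.ρ s0) - (1 + a) ∈ maximalIdeal T)
    (hdet : LinearMap.det (ρ.ρ s0) - a ∈ maximalIdeal T)
    (h : ∀ n : ℕ, ∃ k : ℕ, n ≤ k ∧ ∀ τ ∈ P.inertiaSubgroupIn ℚ, ∀ v : ρ.V,
      (ρ.ρ s0 ^ p ^ k - ((a ^ p ^ k : ℕ) : Module.End T ρ.V)) (ρ.ρ τ v - v)
        ∈ (maximalIdeal T ^ n) • (⊤ : Submodule T ρ.V)) :
    OrdAt ρ P := by
  obtain ⟨α, β, b, hα, hβ, h0, h1⟩ :=
    exists_splitting ρ.finrank_eq (ρ.ρ s0) (a : T) ha htr hdet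
  -- inertia acts trivially modulo the line
  have hI : ∀ σ ∈ P.inertiaSubgroupIn ℚ, ∀ v : ρ.V, ρ.ρ σ v - v ∈ T ∙ b 0 := by
    intro σ hσ v
    refine sub_mem_line hp hpT (ρ.ρ s0) a ha α β b hα hβ h0 h1 (ρ.ρ σ) (fun n => ?_) v
    obtain ⟨k, hk, H⟩ := h n
    exact ⟨k, hk, fun v => H σ hσ v⟩
  -- `α - 1` is a unit
  have hu : IsUnit (α - 1) := by
    by_contra hnu
    have h2 : α - 1 ∈ maximalIdeal T := (mem_maximalIdeal _).mpr hnu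
    have h3 : (a : T) - 1 ∈ maximalIdeal T := by
      have : (a : T) - 1 = (α - 1) - (α - a) := by ring
      rw [this]
      exact sub_mem h2 hα
    exact (mem_maximalIdeal _).mp h3 ha
  obtain ⟨u, hu⟩ := hu
  have hb0 : b 0 = (↑u⁻¹ : T) • (ρ.ρ s0 (b 0) - b 0) := by
    have h2 : α • b 0 - b 0 = (α - 1) • b 0 := by rw [sub_smul, one_smul]
    rw [h0, h2, ← hu, smul_smul, Units.inv_mul, one_smul]
  refine ⟨T ∙ b 0, ⟨b, rfl⟩, ?_, hI⟩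
  intro σ hσ v hv
  obtain ⟨c, rfl⟩ := Submodule.mem_span_singleton.mp hv
  rw [map_smul]
  refine Submodule.smul_mem _ _ ?_
  have hconj : ρ.ρ σ (ρ.ρ s0 (b 0)) = ρ.ρ (σ * s0 * σ⁻¹) (ρ.ρ σ (b 0)) := by
    rw [← Module.End.mul_apply, ← Module.End.mul_apply, ← map_mul, ← map_mul]
    congr 2
    group
  have h3 : ρ.ρ σ (b 0) =
      (↑u⁻¹ : T) • (ρ.ρ (σ * s0 * σ⁻¹) (ρ.ρ σ (b 0)) - ρ.ρ σ (b 0)) := by
    rw [← hconj, ← map_sub, ← map_smul, ← hb0]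
  rw [h3]
  exact Submodule.smul_mem _ _ (hI _ (VS3_conj_mem hσ hs0) _)

end Fermat.Agent.ORD.P0
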